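import Fermat.Agent.S41.PD.Defs

/-! # S41/PD node FAREY: basic facts on the action of `SL(2,ℤ)` on cusps -/

set_option autoImplicit false

open scoped MatrixGroups

namespace Fermat.Agent.S41.PD

open Matrix Matrix.SpecialLinearGroup

theorem act_one (s : OnePoint ℚ) : act 1 s = s := by
  unfold act
  rw [map_one, one_smul]

theorem act_mul (g h : SL(2, ℤ)) (s : OnePoint ℚ) : act (g * h) s = act g (act h s) := by
  unfold act
  rw [map_mul, mul_smul]

/-- formula for the action at `∞` -/
theorem Farey_act_inf (g : SL(2, ℤ)) :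
    act g cInf = if (g 1 0 : ℚ) = 0 then cInf else (((g 0 0 : ℚ) / (g 1 0 : ℚ) : ℚ) : OnePoint ℚ) := by
  unfold act
  rw [OnePoint.smul_infty_eq_ite]
  simp

/-- formula for the action at a finite cusp -/
theorem Farey_act_coe (g : SL(2, ℤ)) (k : ℚ) :
    act g (k : OnePoint ℚ) = if (g 1 0 : ℚ) * k + (g 1 1 : ℚ) = 0 then cInf else
      ((((g 0 0 : ℚ) * k + (g 0 1 : ℚ)) / ((g 1 0 : ℚ) * k + (g 1 1 : ℚ)) : ℚ) : OnePoint ℚ) := by
  unfold act
  rw [OnePoint.smul_some_eq_ite]
  simp

theorem act_neg (g : SL(2, ℤ)) (s : OnePoint ℚ) : act (-g) s = act g s := by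
  cases s with
  | infty =>
    change act (-g) cInf = act g cInf
    rw [Farey_act_inf, Farey_act_inf]
    simp [neg_div_neg_eq]
  | coe k =>
    rw [Farey_act_coe, Farey_act_coe]
    have e1 : ((-g : SL(2, ℤ)) 1 0 : ℚ) * k + ((-g : SL(2, ℤ)) 1 1 : ℚ) =
        -((g 1 0 : ℚ) * k + (g 1 1 : ℚ)) := by simp; ring
    have e2 : ((-g : SL(2, ℤ)) 0 0 : ℚ) * k + ((-g : SL(2, ℤ)) 0 1 : ℚ) =
        -((g 0 0 : ℚ) * k + (g 0 1 : ℚ)) := by simp; ring
    rw [e1, e2, neg_div_neg_eq]
    simp only [neg_eq_zero]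

theorem act_S_inf : act ModularGroup.S cInf = cZero := by
  rw [Farey_act_inf]
  simp [ModularGroup.S]

theorem act_S_zero : act ModularGroup.S cZero = cInf := by
  rw [Farey_act_coe]
  simp [ModularGroup.S]

theorem act_T_inf : act ModularGroup.T cInf = cInf := by
  rw [Farey_act_inf]
  simp [ModularGroup.T]

theorem Farey_act_T_zero : act ModularGroup.T cZero = ((1 : ℚ) : OnePoint ℚ) := by
  rw [Farey_act_coe]
  simp [ModularGroup.T]

theorem Farey_act_T_neg : act ModularGroup.T cNeg = cZero := by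
  rw [Farey_act_coe]
  simp [ModularGroup.T]

theorem Farey_act_S_one : act ModularGroup.S ((1 : ℚ) : OnePoint ℚ) = cNeg := by
  rw [Farey_act_coe]
  simp [ModularGroup.S]

/-- `S T : ∞ ↦ 0 ↦ -1 ↦ ∞`. -/
theorem act_ST_inf : act (ModularGroup.S * ModularGroup.T) cInf = cZero := by
  rw [act_mul, act_T_inf, act_S_inf]

theorem act_ST_zero : act (ModularGroup.S * ModularGroup.T) cZero = cNeg := by
  rw [act_mul, Farey_act_T_zero, Farey_act_S_one]

theorem act_ST_neg : act (ModularGroup.S * ModularGroup.T) cNeg = cInf := by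
  rw [act_mul, Farey_act_T_neg, act_S_zero]

/-- transitivity on cusps -/
theorem exists_act_inf (s : OnePoint ℚ) : ∃ g : SL(2, ℤ), act g cInf = s := by
  obtain ⟨g, hg⟩ := s.exists_mem_SL2 ℤ
  exact ⟨g, hg⟩

/-- the stabiliser of `∞` -/
theorem eq_of_act_inf {g : SL(2, ℤ)} (h : act g cInf = cInf) :
    ∃ k : ℤ, g = ModularGroup.T ^ k ∨ g = - ModularGroup.T ^ k := by
  have hc : g 1 0 = 0 := by
    unfold act at h
    rw [OnePoint.smul_infty_eq_self_iff] at h
    simpa using h
  have had := g.det_coe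
  replace had : g 0 0 * g 1 1 = 1 := by rw [det_fin_two, hc] at had; lia
  rcases Int.eq_one_or_neg_one_of_mul_eq_one' had with (⟨ha, hd⟩ | ⟨ha, hd⟩)
  · refine ⟨g 0 1, Or.inl ?_⟩
    ext i j; fin_cases i <;> fin_cases j <;>
      simp [ha, hc, hd, ModularGroup.coe_T_zpow, show (1 : Fin (0 + 2)) = (1 : Fin 2) from rfl]
  · refine ⟨-(g 0 1), Or.inr ?_⟩
    ext i j; fin_cases i <;> fin_cases j <;>
      simp [ha, hc, hd, ModularGroup.coe_T_zpow, show (1 : Fin (0 + 2)) = (1 : Fin 2) from rfl]

/-- (Farey connectivity) a function on cusps with equal values at the two ends of every Farey edge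
is constant.  (`g ↦ f (g ∞)` is invariant under right multiplication by `S` and `T`, which generate
`SL(2,ℤ)`: `Matrix.SpecialLinearGroup.SL2Z_generators`.) -/
theorem const_of_farey {R : Type*} (f : OnePoint ℚ → R)
    (h : ∀ g : SL(2, ℤ), f (act g cInf) = f (act g cZero)) (s t : OnePoint ℚ) : f s = f t := by
  have key : ∀ γ : SL(2, ℤ), ∀ g : SL(2, ℤ), f (act (g * γ) cInf) = f (act g cInf) := by
    intro γ
    have hγ : γ ∈ Subgroup.closure {ModularGroup.S, ModularGroup.T} := by
      simp [SpecialLinearGroup.SL2Z_generators]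
    induction hγ using Subgroup.closure_induction with
    | one => intro g; rw [mul_one]
    | mem x hx =>
      intro g
      simp only [Set.mem_insert_iff, Set.mem_singleton_iff] at hx
      rcases hx with rfl | rfl
      · rw [act_mul, act_S_inf, h]
      · rw [act_mul, act_T_inf]
    | mul x y _ _ hx hy =>
      intro g
      rw [← mul_assoc, hy, hx]
    | inv x _ hx =>
      intro g
      have := hx (g * x⁻¹)
      rw [inv_mul_cancel_right] at this
      exact this.symm
  have hall : ∀ s : OnePoint ℚ, f s = f cInf := by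
    intro s
    obtain ⟨g, rfl⟩ := exists_act_inf s
    have := key g 1
    rwa [one_mul, act_one] at this
  rw [hall s, hall t]

end Fermat.Agent.S41.PD
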