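import Fermat.Agent.S41.PD.Defs

/-! # S41/PD node OMEGA: elementary properties of `omega` (Mathlib only + PD/Defs) -/

set_option autoImplicit false

namespace Fermat.Agent.S41.PD

variable {X : Type*} [Fintype X] {R : Type*} [CommRing R]

omit [Fintype X] in
/-- the powers of a permutation of order dividing three -/
theorem omega_zpow_cases (U : Equiv.Perm X) (hU : U * U * U = 1) (i : ℤ) :
    U ^ i = 1 ∨ U ^ i = U ∨ U ^ i = U * U := by
  have h3 : U ^ (3 : ℤ) = 1 := by
    rw [show (3 : ℤ) = ((3 : ℕ) : ℤ) from rfl, zpow_natCast, pow_succ, pow_two, hU]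
  have hi : U ^ i = U ^ (i % 3) := by
    conv_lhs => rw [← Int.mul_ediv_add_emod i 3]
    rw [zpow_add, zpow_mul, h3, one_zpow, one_mul]
  rw [hi]
  obtain h | h | h : i % 3 = 0 ∨ i % 3 = 1 ∨ i % 3 = 2 := by omega
  · left; rw [h, zpow_zero]
  · right; left; rw [h, zpow_one]
  · right; right; rw [h]; exact zpow_two U

/-- For Manin vectors `h ξ = x ξ * y (U ξ) - x (U ξ) * y ξ` is `U`-invariant, and `0` at fixed points
of `U`; the `U`-orbits have 1 or 3 elements. -/
theorem three_mul_omega (S U : Equiv.Perm X) (hU : U * U * U = 1) (x y : X → R)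
    (hx : IsManin S U x) (hy : IsManin S U y) :
    3 * omega U x y = ∑ ξ, (x ξ * y (U ξ) - x (U ξ) * y ξ) := by
  classical
  set h : X → R := fun ξ => x ξ * y (U ξ) - x (U ξ) * y ξ with hh
  have hinv : ∀ ξ, h (U ξ) = h ξ := by
    intro ξ
    have e1 := hx.2.1 ξ
    have e2 := hy.2.1 ξ
    simp only [hh]
    linear_combination x (U ξ) * e2 - y (U ξ) * e1
  have hUUU : ∀ ξ, U (U (U ξ)) = ξ := fun ξ => by
    have := congrArg (fun f : Equiv.Perm X => f ξ) hU
    simpa using this
  rw [omega, Finset.mul_sum,
    ← Finset.sum_fiberwise (s := Finset.univ)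
      (g := fun ξ => (Quotient.mk (Equiv.Perm.SameCycle.setoid U) ξ)) (f := h)]
  refine Finset.sum_congr rfl fun o _ => ?_
  have hfib : Finset.univ.filter
      (fun ξ => Quotient.mk (Equiv.Perm.SameCycle.setoid U) ξ = o) =
        {o.out, U o.out, U (U o.out)} := by
    ext ξ
    simp only [Finset.mem_filter, Finset.mem_univ, true_and, Finset.mem_insert,
      Finset.mem_singleton]
    constructor
    · intro e
      have hs : Equiv.Perm.SameCycle U o.out ξ := by
        have e' : Quotient.mk (Equiv.Perm.SameCycle.setoid U) o.out =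
            Quotient.mk (Equiv.Perm.SameCycle.setoid U) ξ := by
          rw [e]
          exact Quotient.out_eq o
        exact Quotient.exact e'
      obtain ⟨i, rfl⟩ := hs
      rcases omega_zpow_cases U hU i with h | h | h <;> rw [h] <;> simp
    · have key : ∀ ξ, Equiv.Perm.SameCycle U ξ o.out →
          Quotient.mk (Equiv.Perm.SameCycle.setoid U) ξ = o := by
        intro ξ hs
        rw [← Quotient.out_eq o]
        exact Quotient.sound hs
      rintro (rfl | rfl | rfl)
      · exact key _ (Equiv.Perm.SameCycle.refl _ _)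
      · exact key _ (Equiv.Perm.sameCycle_apply_left.2 (Equiv.Perm.SameCycle.refl _ _))
      · exact key _ (Equiv.Perm.sameCycle_apply_left.2
          (Equiv.Perm.sameCycle_apply_left.2 (Equiv.Perm.SameCycle.refl _ _)))
  rw [hfib]
  by_cases hfix : U o.out = o.out
  · simp [hfix, hh]
  · have n1 : o.out ∉ ({U o.out, U (U o.out)} : Finset X) := by
      simp only [Finset.mem_insert, Finset.mem_singleton, not_or]
      refine ⟨fun e => hfix e.symm, fun e => hfix ?_⟩
      have := congrArg U e
      rw [hUUU] at this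
      exact this
    have n2 : U o.out ∉ ({U (U o.out)} : Finset X) := by
      simp only [Finset.mem_singleton]
      intro e
      exact hfix (U.injective e).symm
    rw [Finset.sum_insert n1, Finset.sum_insert n2, Finset.sum_singleton, hinv (U o.out), hinv o.out]
    simp only [hh]
    ring

theorem omega_add_left (U : Equiv.Perm X) (x x' y : X → R) :
    omega U (x + x') y = omega U x y + omega U x' y := by
  simp only [omega, Pi.add_apply]
  rw [← Finset.sum_add_distrib]
  exact Finset.sum_congr rfl fun o _ => by ring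

theorem omega_swap (U : Equiv.Perm X) (x y : X → R) : omega U y x = - omega U x y := by
  simp only [omega]
  rw [← Finset.sum_neg_distrib]
  exact Finset.sum_congr rfl fun o _ => by ring

/-- naturality in the coefficient ring -/
theorem omega_map {R' : Type*} [CommRing R'] (f : R →+* R') (U : Equiv.Perm X) (x y : X → R) :
    omega U (fun ξ => f (x ξ)) (fun ξ => f (y ξ)) = f (omega U x y) := by
  simp only [omega, map_sum, map_sub, map_mul]

theorem IsManin.map {R' : Type*} [CommRing R'] (f : R →+* R') {S U : Equiv.Perm X} {x : X → R}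
    (hx : IsManin S U x) : IsManin S U (fun ξ => f (x ξ)) := by
  refine ⟨fun ξ => ?_, fun ξ => ?_, fun ξ hξ => ?_⟩
  · rw [← map_add, hx.1, map_zero]
  · rw [← map_add, ← map_add, hx.2.1, map_zero]
  · show f (x ξ) = 0
    rw [hx.2.2 ξ hξ, map_zero]

theorem IsManin.add {S U : Equiv.Perm X} {x y : X → R} (hx : IsManin S U x) (hy : IsManin S U y) :
    IsManin S U (x + y) := by
  refine ⟨fun ξ => ?_, fun ξ => ?_, fun ξ hξ => ?_⟩
  · simp only [Pi.add_apply]
    linear_combination hx.1 ξ + hy.1 ξ
  · simp only [Pi.add_apply]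
    linear_combination hx.2.1 ξ + hy.2.1 ξ
  · simp only [Pi.add_apply]
    rw [hx.2.2 ξ hξ, hy.2.2 ξ hξ, add_zero]

end Fermat.Agent.S41.PD
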