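import Fermat.Agent.S41.PD.Cusp

/-!
# S41/PD, middle layer: the pairing is bilinear and alternating  (owner: helper101)

* `pd_eq` : `pd M x y` may be computed with arbitrary cusp potentials of `x, y ∈ Lam M`;
* `pdL M : Lam M →ₗ[ℤ] Lam M →ₗ[ℤ] ℤ`, the bundled pairing; `pdL_swap`.
-/

set_option autoImplicit false

open CongruenceSubgroup Matrix Matrix.SpecialLinearGroup ModularGroup
open scoped MatrixGroups

namespace Fermat.Agent.S41.PD

open Fermat.Agent.Lib.HeckeHom

section omega

variable {X : Type*} [Fintype X] {R : Type*} [CommRing R]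

theorem omega_add_right (U : Equiv.Perm X) (x y y' : X → R) :
    omega U x (y + y') = omega U x y + omega U x y' := by
  rw [omega_swap, omega_add_left, omega_swap U x y, omega_swap U x y']
  ring

theorem omega_smul_left (U : Equiv.Perm X) (c : R) (x y : X → R) :
    omega U (fun ξ => c * x ξ) y = c * omega U x y := by
  simp only [omega]
  rw [Finset.mul_sum]
  exact Finset.sum_congr rfl fun o _ => by ring

end omega

theorem manin_add {A : Type*} [AddCommGroup A] (M : ℕ) (u u' : OnePoint ℚ → A) :
    manin M (fun s => u s + u' s) = manin M u + manin M u' := by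
  funext ξ
  simp only [manin, Pi.add_apply]
  abel

theorem manin_smul {R : Type*} [CommRing R] (M : ℕ) (c : R) (u : OnePoint ℚ → R) :
    manin M (fun s => c * u s) = fun ξ => c * manin M u ξ := by
  funext ξ
  simp only [manin]
  ring

theorem manin_map {A B : Type*} [AddCommGroup A] [AddCommGroup B] (M : ℕ) (f : A →+ B)
    (u : OnePoint ℚ → A) : manin M (fun s => f (u s)) = fun ξ => f (manin M u ξ) := by
  funext ξ
  simp only [manin, map_sub]

/-- `omega` of the Manin vectors only depends on the homomorphisms (first variable). -/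
theorem omega_manin_congr_left {R : Type*} [CommRing R] {M : ℕ} [NeZero M]
    {x : Additive (Gamma0 M) →+ R} {u u' : OnePoint ℚ → R} (hu : IsCuspPot M u x)
    (hu' : IsCuspPot M u' x) {m : X M → R} (hm : IsManin (pS M) (pU M) m) :
    omega (pU M) (manin M u) m = omega (pU M) (manin M u') m := by
  have hκ : IsCuspPot M (fun s => u s - u' s) 0 := by
    have := IsPotential.sub hu hu'
    rwa [sub_self] at this
  have e : manin M u = manin M u' + manin M (fun s => u s - u' s) := by
    rw [← manin_add]
    congr 1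
    funext s
    ring
  rw [e, omega_add_left, omega_swap (pU M) m (manin M fun s => u s - u' s),
    omega_manin_invariant hκ hm, neg_zero, add_zero]

variable {M : ℕ} [NeZero M]

/-- the pairing may be computed with arbitrary cusp potentials. -/
theorem pd_eq {x y : Additive (Gamma0 M) →+ ℤ} (hx : x ∈ Lam M) (hy : y ∈ Lam M)
    {u v : OnePoint ℚ → ℤ} (hu : IsCuspPot M u x) (hv : IsCuspPot M v y) :
    pd M x y = omega (pU M) (manin M u) (manin M v) := by
  unfold pd
  rw [omega_manin_congr_left (isCuspPot_potOf hx) hu (isManin_manin_int (isCuspPot_potOf hy)),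
    omega_swap, omega_manin_congr_left (isCuspPot_potOf hy) hv (isManin_manin_int hu), omega_swap,
    neg_neg]

theorem pd_swap {x y : Additive (Gamma0 M) →+ ℤ} : pd M y x = - pd M x y :=
  omega_swap _ _ _

theorem pd_add_left {x x' y : Additive (Gamma0 M) →+ ℤ} (hx : x ∈ Lam M) (hx' : x' ∈ Lam M)
    (hy : y ∈ Lam M) : pd M (x + x') y = pd M x y + pd M x' y := by
  have hu := isCuspPot_potOf hx
  have hu' := isCuspPot_potOf hx'
  have hv := isCuspPot_potOf hy
  rw [pd_eq ((Lam M).add_mem hx hx') hy (IsPotential.add hu hu') hv, pd_eq hx hy hu hv,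
    pd_eq hx' hy hu' hv, manin_add, omega_add_left]

theorem pd_smul_left {x y : Additive (Gamma0 M) →+ ℤ} (c : ℤ) (hx : x ∈ Lam M)
    (hy : y ∈ Lam M) : pd M (c • x) y = c * pd M x y := by
  have hu := isCuspPot_potOf hx
  have hv := isCuspPot_potOf hy
  have hcu : IsCuspPot M (fun s => c * potOf M x s) (c • x) := by
    have := IsPotential.zsmul hu c
    simpa only [smul_eq_mul] using this
  rw [pd_eq ((Lam M).smul_mem c hx) hy hcu hv, pd_eq hx hy hu hv, manin_smul, omega_smul_left]

variable (M)

/-- **The pairing on the lattice `Lam M`.** -/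
noncomputable def pdL : Lam M →ₗ[ℤ] Lam M →ₗ[ℤ] ℤ :=
  LinearMap.mk₂ ℤ (fun x y => pd M x.1 y.1)
    (fun x x' y => pd_add_left x.2 x'.2 y.2)
    (fun c x y => pd_smul_left c x.2 y.2)
    (fun x y y' => by
      show pd M x.1 (y.1 + y'.1) = _
      rw [pd_swap, pd_add_left y.2 y'.2 x.2, pd_swap (x := x.1), pd_swap (x := x.1)]
      ring)
    (fun c x y => by
      show pd M x.1 (c • y.1) = _
      rw [pd_swap, pd_smul_left c y.2 x.2, pd_swap (x := x.1), smul_eq_mul]
      ring)

variable {M}

theorem pdL_apply (x y : Lam M) : pdL M x y = pd M x.1 y.1 := rfl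

theorem pdL_swap (x y : Lam M) : pdL M y x = - pdL M x y := pd_swap

theorem pdL_eq (x y : Lam M) {u v : OnePoint ℚ → ℤ} (hu : IsCuspPot M u x.1)
    (hv : IsCuspPot M v y.1) : pdL M x y = omega (pU M) (manin M u) (manin M v) :=
  pd_eq x.2 y.2 hu hv

end Fermat.Agent.S41.PD
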