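import Fermat.Agent.S41.PD.Defs

/-! # S41/PD node BOUNDARY: boundaries are Manin vectors in the radical of `omega` -/

set_option autoImplicit false

namespace Fermat.Agent.S41.PD

variable {X : Type*} [Fintype X] {R : Type*} [CommRing R]

private theorem boundary_SS {S : Equiv.Perm X} (hS : S * S = 1) (ξ : X) : S (S ξ) = ξ := by
  have h := congrArg (fun p : Equiv.Perm X => p ξ) hS
  simpa using h

private theorem boundary_UUU {U : Equiv.Perm X} (hU : U * U * U = 1) (ξ : X) :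
    U (U (U ξ)) = ξ := by
  have h := congrArg (fun p : Equiv.Perm X => p ξ) hU
  simpa using h

theorem isManin_boundary (S U : Equiv.Perm X) (hS : S * S = 1) (hU : U * U * U = 1) (a : X → R)
    (ha : ∀ ξ, a (U ξ) = a (S ξ)) : IsManin S U (fun ξ => a ξ - a (S ξ)) := by
  refine ⟨fun ξ => ?_, fun ξ => ?_, fun ξ hξ => ?_⟩
  · show a ξ - a (S ξ) + (a (S ξ) - a (S (S ξ))) = 0
    rw [boundary_SS hS]
    ring
  · show a ξ - a (S ξ) + (a (U ξ) - a (S (U ξ))) + (a (U (U ξ)) - a (S (U (U ξ)))) = 0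
    rw [← ha, ← ha, ← ha, boundary_UUU hU]
    ring
  · show a ξ - a (S ξ) = 0
    rw [← ha, hξ, sub_self]

private theorem boundary_sameCycle_iff (U : Equiv.Perm X) (hU : U * U * U = 1) (ρ η : X) :
    U.SameCycle ρ η ↔ η = ρ ∨ η = U ρ ∨ η = U (U ρ) := by
  constructor
  · rintro ⟨i, rfl⟩
    have h3 : U ^ (3 : ℤ) = 1 := by
      have h : U ^ (3 : ℕ) = 1 := by
        rw [pow_succ, pow_two]
        exact hU
      exact_mod_cast h
    rw [zpow_eq_zpow_emod i h3]
    have h1 : 0 ≤ i % 3 := Int.emod_nonneg _ (by norm_num)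
    have h2 : i % 3 < 3 := Int.emod_lt_of_pos _ (by norm_num)
    obtain h | h | h : i % 3 = 0 ∨ i % 3 = 1 ∨ i % 3 = 2 := by omega
    · left
      rw [h]
      simp
    · right; left
      rw [h]
      simp
    · right; right
      rw [h, zpow_two]
      rfl
  · rintro (rfl | rfl | rfl)
    · exact Equiv.Perm.SameCycle.refl _ _
    · exact ⟨1, by simp⟩
    · exact ⟨2, by rw [zpow_two]; rfl⟩

open Classical in
/-- summation over the orbits of a permutation of order three -/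
private theorem boundary_sum_orbits (U : Equiv.Perm X) (hU : U * U * U = 1) (t g : X → R)
    (h3 : ∀ ρ, U ρ ≠ ρ → g ρ = t ρ + t (U ρ) + t (U (U ρ))) (h1 : ∀ ρ, U ρ = ρ → g ρ = t ρ) :
    ∑ ξ, t ξ = ∑ o : Quotient (Equiv.Perm.SameCycle.setoid U), g o.out := by
  rw [← Finset.sum_fiberwise Finset.univ
    (fun ξ => (Quotient.mk (Equiv.Perm.SameCycle.setoid U) ξ)) t]
  refine Finset.sum_congr rfl fun o _ => ?_
  have hfil : (Finset.univ.filter fun ξ => Quotient.mk (Equiv.Perm.SameCycle.setoid U) ξ = o) =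
      {o.out, U o.out, U (U o.out)} := by
    ext ξ
    simp only [Finset.mem_filter, Finset.mem_univ, true_and, Finset.mem_insert,
      Finset.mem_singleton]
    rw [← boundary_sameCycle_iff U hU]
    conv_lhs => rw [← Quotient.out_eq o]
    rw [Quotient.eq]
    exact ⟨fun h => Equiv.Perm.SameCycle.symm h, fun h => Equiv.Perm.SameCycle.symm h⟩
  rw [hfil]
  by_cases hρ : U o.out = o.out
  · rw [h1 _ hρ, hρ, hρ]
    simp
  · rw [h3 _ hρ, Finset.sum_insert, Finset.sum_insert, Finset.sum_singleton, add_assoc]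
    · simp only [Finset.mem_singleton]
      intro h
      exact hρ (U.injective h).symm
    · simp only [Finset.mem_insert, Finset.mem_singleton, not_or]
      refine ⟨fun h => hρ h.symm, fun h => hρ ?_⟩
      have h' := boundary_UUU hU o.out
      rw [← h] at h'
      exact h'

/-- On an orbit `(ρ, Uρ, U²ρ)` write `x_i, a_i`; `y_i = a_i - a_{i+1}`.  Then
`x₀ y₁ - x₁ y₀ = P + Q`, `P = x₀a₁ + x₁a₂ + x₂a₀`, `Q = x₀a₀ + x₁a₁ + x₂a₂` (use `x₂ = -x₀-x₁`), and
`∑ P = ∑_ξ x ξ * a (U ξ) = ∑_ξ x ξ * a (S ξ) = ∑_ξ x (S ξ) * a ξ = - ∑ Q`.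
(Cleanest: show `t ξ := x ξ * a (U ξ) + x ξ * a ξ` satisfies
`t ρ + t (Uρ) + t (U²ρ) = x ρ * y (Uρ) - x (Uρ) * y ρ` on every orbit, `t = 0` at fixed points.) -/
theorem omega_boundary (S U : Equiv.Perm X) (hS : S * S = 1) (hU : U * U * U = 1) (x : X → R)
    (hx : IsManin S U x) (a : X → R) (ha : ∀ ξ, a (U ξ) = a (S ξ)) :
    omega U x (fun ξ => a ξ - a (S ξ)) = 0 := by
  have hsum : ∑ ξ, (x ξ * a (U ξ) + x ξ * a ξ) = 0 := by
    rw [Finset.sum_add_distrib]
    have h1 : ∑ ξ, x ξ * a (U ξ) = ∑ ξ, x (S ξ) * a ξ := by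
      rw [← Equiv.sum_comp S (fun ξ => x ξ * a (U ξ))]
      refine Finset.sum_congr rfl fun ξ _ => ?_
      rw [ha (S ξ), boundary_SS hS]
    rw [h1, ← Finset.sum_add_distrib]
    refine Finset.sum_eq_zero fun ξ _ => ?_
    rw [← add_mul, add_comm, hx.1 ξ, zero_mul]
  unfold omega
  rw [← hsum]
  symm
  refine boundary_sum_orbits U hU (fun ξ => x ξ * a (U ξ) + x ξ * a ξ)
    (fun ρ => x ρ * (a (U ρ) - a (S (U ρ))) - x (U ρ) * (a ρ - a (S ρ))) ?_ ?_
  · intro ρ _
    have hx2 : x (U (U ρ)) = - x ρ - x (U ρ) := by linear_combination hx.2.1 ρ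
    rw [← ha, ← ha, boundary_UUU hU, hx2]
    ring
  · intro ρ hρ
    rw [hρ, hx.2.2 ρ hρ]
    ring

end Fermat.Agent.S41.PD
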