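import Fermat.Agent.S41.PD.Farey
import Fermat.Agent.S41.PD.Omega
import Fermat.Agent.S41.PD.Boundary
import Fermat.Agent.Lib.PSL2Pres

/-!
# S41/PD, middle layer: cusp potentials and their Manin vectors  (owner: helper101)

* `exists_isCuspPot` : every `x ∈ Lam M` has a cusp potential;
* `manin_mk` : the Manin vector of a cusp potential, evaluated at an arbitrary representative;
* `isManin_manin` : it is a Manin vector;
* `omega_manin_invariant` : Manin vectors of `Γ₀(M)`-invariant functions are in the radical.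
-/

set_option autoImplicit false

open CongruenceSubgroup Matrix Matrix.SpecialLinearGroup ModularGroup
open scoped MatrixGroups

namespace Fermat.Agent.S41.PD

open Fermat.Agent.Lib.HeckeHom

/-! ### generalities on potentials -/

/-- A homomorphism killing all stabilisers has a potential. -/
theorem exists_isPotential_of_stabilizer {Γ G Y A : Type*} [Group Γ] [Group G] [MulAction G Y]
    [AddCommGroup A] (φ : Γ →* G) (ψ : Additive Γ →+ A)
    (h : ∀ (γ : Γ) (y : Y), φ γ • y = y → ψ (Additive.ofMul γ) = 0) :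
    ∃ F : Y → A, IsPotential φ F ψ := by
  classical
  let _ : MulAction Γ Y := MulAction.compHom Y φ
  have hsm : ∀ (γ : Γ) (y : Y), γ • y = φ γ • y := fun _ _ => rfl
  let s : Setoid Y := MulAction.orbitRel Γ Y
  have hrel : ∀ y : Y, ∃ γ : Γ, γ • (Quotient.out (Quotient.mk s y)) = y := by
    intro y
    have h1 : s y (Quotient.out (Quotient.mk s y)) :=
      Setoid.symm' s (Quotient.exact (Quotient.out_eq _))
    exact h1
  refine ⟨fun y => ψ (Additive.ofMul (hrel y).choose), ?_⟩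
  intro γ y
  have e1 := (hrel y).choose_spec
  have e2 := (hrel (φ γ • y)).choose_spec
  have hq : Quotient.mk s (φ γ • y) = Quotient.mk s y := by
    apply Quotient.sound
    exact ⟨γ, rfl⟩
  have hq' : Quotient.out (Quotient.mk s (φ γ • y)) = Quotient.out (Quotient.mk s y) :=
    congrArg Quotient.out hq
  show ψ (Additive.ofMul (hrel (φ γ • y)).choose) - ψ (Additive.ofMul (hrel y).choose) = _
  generalize (hrel (φ γ • y)).choose = a at e2 ⊢
  generalize (hrel y).choose = b at e1 ⊢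
  rw [hq'] at e2
  set r := Quotient.out (Quotient.mk s y) with hr
  have hfix : φ ((γ * b)⁻¹ * a) • r = r := by
    rw [← hsm, mul_smul, e2, ← hsm, ← e1, ← mul_smul, ← mul_smul, mul_assoc, inv_mul_cancel,
      one_smul]
  have h0 := h _ _ hfix
  rw [ofMul_mul, ofMul_inv, ofMul_mul, map_add, map_neg, map_add] at h0
  rw [sub_eq_iff_eq_add]
  have : ψ (Additive.ofMul a) = ψ (Additive.ofMul γ) + ψ (Additive.ofMul b) := by
    rw [neg_add_eq_zero] at h0
    exact h0.symm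
  exact this

/-! ### the action of `Γ₀(M)` on cusps -/

theorem inclQ_smul (M : ℕ) (γ : Gamma0 M) (s : OnePoint ℚ) :
    inclQ M γ • s = act (γ : SL(2, ℤ)) s := rfl

theorem act_inv_act (g : SL(2, ℤ)) (s : OnePoint ℚ) : act g⁻¹ (act g s) = s := by
  rw [← act_mul, inv_mul_cancel, act_one]

theorem act_act_inv (g : SL(2, ℤ)) (s : OnePoint ℚ) : act g (act g⁻¹ s) = s := by
  rw [← act_mul, mul_inv_cancel, act_one]

theorem act_S_inv_inf : act S⁻¹ cInf = cZero := by
  rw [← act_S_zero, act_inv_act]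

theorem act_S_inv_zero : act S⁻¹ cZero = cInf := by
  rw [← act_S_inf, act_inv_act]

theorem act_T_inv_inf : act T⁻¹ cInf = cInf := by
  conv_lhs => rw [← act_T_inf, act_inv_act]

theorem act_S_mul_inv (g : SL(2, ℤ)) (s : OnePoint ℚ) :
    act (S * g)⁻¹ s = act g⁻¹ (act S⁻¹ s) := by
  rw [_root_.mul_inv_rev, act_mul]

theorem act_U_mul_inv (g : SL(2, ℤ)) (s : OnePoint ℚ) :
    act ((S * T)⁻¹ * g)⁻¹ s = act g⁻¹ (act (S * T) s) := by
  rw [_root_.mul_inv_rev, inv_inv, act_mul]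

theorem act_mul_coe_inv {M : ℕ} (g : SL(2, ℤ)) (γ : Gamma0 M) (s : OnePoint ℚ) :
    act (g * (γ : SL(2, ℤ)))⁻¹ s = act ((γ⁻¹ : Gamma0 M) : SL(2, ℤ)) (act g⁻¹ s) := by
  rw [_root_.mul_inv_rev, act_mul]
  rfl

/-- an element of `SL(2,ℤ)` fixing a cusp has trace `± 2`. -/
theorem trace_sq_of_act_eq {γ : SL(2, ℤ)} {s : OnePoint ℚ} (h : act γ s = s) :
    ((γ : Matrix (Fin 2) (Fin 2) ℤ)).trace ^ 2 = 4 := by
  obtain ⟨g, rfl⟩ := exists_act_inf s
  have h1 : act (g⁻¹ * γ * g) cInf = cInf := by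
    rw [act_mul, act_mul, h, act_inv_act]
  obtain ⟨k, hk⟩ := eq_of_act_inf h1
  have htr : ((γ : Matrix (Fin 2) (Fin 2) ℤ)).trace
      = (((g⁻¹ * γ * g : SL(2, ℤ)) : Matrix (Fin 2) (Fin 2) ℤ)).trace := by
    rw [Matrix.SpecialLinearGroup.coe_mul, Matrix.SpecialLinearGroup.coe_mul,
      Matrix.trace_mul_comm, ← Matrix.mul_assoc, ← Matrix.SpecialLinearGroup.coe_mul,
      mul_inv_cancel]
    simp
  rw [htr]
  rcases hk with hk | hk <;> rw [hk] <;>
    simp [ModularGroup.coe_T_zpow, Matrix.trace_fin_two]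

/-- every parabolic integral homomorphism has a cusp potential. -/
theorem exists_isCuspPot {A : Type*} [AddCommGroup A] {M : ℕ} {x : Additive (Gamma0 M) →+ A}
    (hx : ModularCurve.Period.IsParabolicHom (Gamma0 M) x) : ∃ u, IsCuspPot M u x :=
  exists_isPotential_of_stabilizer (inclQ M) x fun γ _ h => hx γ (trace_sq_of_act_eq h)

theorem isCuspPot_potOf {A : Type*} [AddCommGroup A] {M : ℕ} {x : Additive (Gamma0 M) →+ A}
    (hx : ModularCurve.Period.IsParabolicHom (Gamma0 M) x) : IsCuspPot M (potOf M x) x := by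
  have h := exists_isCuspPot hx
  unfold potOf
  rw [dif_pos h]
  exact h.choose_spec

/-! ### the coset space -/

/-- evaluation of a right `Γ₀(M)`-invariant function at the chosen representative. -/
theorem apply_out {B : Type*} {M : ℕ} (F : SL(2, ℤ) → B)
    (hF : ∀ (g : SL(2, ℤ)) (γ : Gamma0 M), F (g * γ) = F g) (g : SL(2, ℤ)) :
    F (Quotient.out (QuotientGroup.mk g : X M)) = F g := by
  obtain ⟨γ, hγ⟩ := QuotientGroup.mk_out_eq_mul (Gamma0 M) g
  rw [hγ, hF]

theorem pS_mk (M : ℕ) (g : SL(2, ℤ)) :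
    pS M (QuotientGroup.mk g) = QuotientGroup.mk (S * g) := rfl

theorem pU_mk (M : ℕ) (g : SL(2, ℤ)) :
    pU M (QuotientGroup.mk g) = QuotientGroup.mk ((S * T)⁻¹ * g) := rfl

theorem neg_one_mem_Gamma0 (M : ℕ) : (-1 : SL(2, ℤ)) ∈ Gamma0 M := by
  rw [Gamma0_mem]
  simp

theorem mk_neg_eq (M : ℕ) (g : SL(2, ℤ)) :
    (QuotientGroup.mk (-g) : X M) = QuotientGroup.mk g := by
  rw [QuotientGroup.eq, inv_neg, neg_mul, inv_mul_cancel]
  exact neg_one_mem_Gamma0 M

theorem pS_mul_pS (M : ℕ) : pS M * pS M = 1 := by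
  ext ξ
  obtain ⟨g, rfl⟩ := QuotientGroup.mk_surjective ξ
  rw [Equiv.Perm.mul_apply, pS_mk, pS_mk, ← mul_assoc, ← pow_two, Lib.PSL2Pres.S_sq, neg_one_mul,
    mk_neg_eq]
  rfl

theorem pU_mul_pU_mul_pU (M : ℕ) : pU M * pU M * pU M = 1 := by
  ext ξ
  obtain ⟨g, rfl⟩ := QuotientGroup.mk_surjective ξ
  rw [Equiv.Perm.mul_apply, Equiv.Perm.mul_apply, pU_mk, pU_mk, pU_mk, ← mul_assoc, ← mul_assoc,
    ← pow_two, ← pow_succ, inv_pow, Lib.PSL2Pres.ST_cube, inv_neg, inv_one, neg_one_mul, mk_neg_eq]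
  rfl

/-! ### Manin vectors of cusp potentials -/

section manin

variable {A : Type*} [AddCommGroup A] {M : ℕ} {u : OnePoint ℚ → A}
  {x : Additive (Gamma0 M) →+ A}

theorem IsCuspPot_act (hu : IsCuspPot M u x) (γ : Gamma0 M) (s : OnePoint ℚ) :
    u (act (γ : SL(2, ℤ)) s) = u s + x (Additive.ofMul γ) :=
  hu.apply_smul γ s

theorem manin_mk (hu : IsCuspPot M u x) (g : SL(2, ℤ)) :
    manin M u (QuotientGroup.mk g) = u (act g⁻¹ cInf) - u (act g⁻¹ cZero) := by
  refine apply_out (M := M) (fun g => u (act g⁻¹ cInf) - u (act g⁻¹ cZero)) ?_ g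
  intro g γ
  simp only [act_mul_coe_inv, IsCuspPot_act hu]
  abel

theorem manin_pS_mk (hu : IsCuspPot M u x) (g : SL(2, ℤ)) :
    manin M u (pS M (QuotientGroup.mk g)) = u (act g⁻¹ cZero) - u (act g⁻¹ cInf) := by
  rw [pS_mk, manin_mk hu, act_S_mul_inv, act_S_mul_inv, act_S_inv_inf, act_S_inv_zero]

theorem manin_pU_mk (hu : IsCuspPot M u x) (g : SL(2, ℤ)) :
    manin M u (pU M (QuotientGroup.mk g)) = u (act g⁻¹ cZero) - u (act g⁻¹ cNeg) := by
  rw [pU_mk, manin_mk hu, act_U_mul_inv, act_U_mul_inv, act_ST_inf, act_ST_zero]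

theorem manin_pU_pU_mk (hu : IsCuspPot M u x) (g : SL(2, ℤ)) :
    manin M u (pU M (pU M (QuotientGroup.mk g))) = u (act g⁻¹ cNeg) - u (act g⁻¹ cInf) := by
  rw [pU_mk, manin_pU_mk hu, act_U_mul_inv, act_U_mul_inv, act_ST_zero, act_ST_neg]

theorem pU_mk_eq_iff (g : SL(2, ℤ)) :
    pU M (QuotientGroup.mk g) = QuotientGroup.mk g ↔ g⁻¹ * (S * T) * g ∈ Gamma0 M := by
  rw [pU_mk, QuotientGroup.eq, _root_.mul_inv_rev, inv_inv]

end manin

/-- the Manin vector of a cusp potential is a Manin vector. -/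
theorem isManin_manin {R : Type*} [CommRing R] {M : ℕ} {u : OnePoint ℚ → R}
    {x : Additive (Gamma0 M) →+ R} (hu : IsCuspPot M u x)
    (hell : ∀ (g : SL(2, ℤ)) (h : g⁻¹ * (S * T) * g ∈ Gamma0 M), x (Additive.ofMul ⟨_, h⟩) = 0) :
    IsManin (pS M) (pU M) (manin M u) := by
  refine ⟨fun ξ => ?_, fun ξ => ?_, fun ξ hξ => ?_⟩
  · obtain ⟨g, rfl⟩ := QuotientGroup.mk_surjective ξ
    rw [manin_pS_mk hu, manin_mk hu]
    ring
  · obtain ⟨g, rfl⟩ := QuotientGroup.mk_surjective ξ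
    rw [manin_pU_pU_mk hu, manin_pU_mk hu, manin_mk hu]
    ring
  · obtain ⟨g, rfl⟩ := QuotientGroup.mk_surjective ξ
    rw [pU_mk_eq_iff] at hξ
    have h1 := IsCuspPot_act hu ⟨_, hξ⟩ (act g⁻¹ cInf)
    rw [hell g hξ, add_zero] at h1
    simp only [act_mul, act_act_inv, act_T_inf, act_S_inf] at h1
    rw [manin_mk hu, h1, sub_self]

theorem isManin_manin_int {M : ℕ} {u : OnePoint ℚ → ℤ} {x : Additive (Gamma0 M) →+ ℤ}
    (hu : IsCuspPot M u x) : IsManin (pS M) (pU M) (manin M u) := by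
  refine isManin_manin hu fun g h => ?_
  -- torsion elements are killed
  have h6 : (⟨_, h⟩ : Gamma0 M) ^ 6 = 1 := by
    apply Subtype.ext
    show (g⁻¹ * (S * T) * g) ^ 6 = 1
    have : g⁻¹ * (S * T) * g = g⁻¹ * (S * T) * g⁻¹⁻¹ := by rw [inv_inv]
    rw [this, conj_pow, show (6 : ℕ) = 3 * 2 from rfl, pow_mul, Lib.PSL2Pres.ST_cube]
    simp
  have h0 : (6 : ℕ) • x (Additive.ofMul (⟨_, h⟩ : Gamma0 M)) = 0 := by
    rw [← map_nsmul, ← ofMul_pow, h6]
    simp
  simpa using h0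

/-! ### invariant functions give boundaries -/

/-- the Manin vector of an invariant function on cusps is a boundary. -/
theorem omega_manin_invariant {R : Type*} [CommRing R] {M : ℕ} [NeZero M] {κ : OnePoint ℚ → R}
    (hκ : IsCuspPot M κ 0) {m : X M → R} (hm : IsManin (pS M) (pU M) m) :
    omega (pU M) m (manin M κ) = 0 := by
  set a : X M → R := fun ξ => κ (act (Quotient.out ξ)⁻¹ cInf) with ha
  have hamk : ∀ g : SL(2, ℤ), a (QuotientGroup.mk g) = κ (act g⁻¹ cInf) := by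
    intro g
    refine apply_out (M := M) (fun g => κ (act g⁻¹ cInf)) ?_ g
    intro g γ
    simp only [act_mul_coe_inv, IsCuspPot_act hκ]
    simp
  have h1 : manin M κ = fun ξ => a ξ - a (pS M ξ) := by
    funext ξ
    obtain ⟨g, rfl⟩ := QuotientGroup.mk_surjective ξ
    rw [manin_mk hκ, pS_mk, hamk, hamk, act_S_mul_inv, act_S_inv_inf]
  rw [h1]
  refine omega_boundary (pS M) (pU M) (pS_mul_pS M) (pU_mul_pU_mul_pU M) m hm a ?_
  intro ξ
  obtain ⟨g, rfl⟩ := QuotientGroup.mk_surjective ξ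
  rw [pS_mk, pU_mk, hamk, hamk, act_S_mul_inv, act_U_mul_inv, act_ST_inf, act_S_inv_inf]

end Fermat.Agent.S41.PD
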