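import Fermat.Agent.S41.Defs
import Fermat.Agent.S41.Pot.Basic

/-!
# S41, block PD (Poincaré duality on `Lam M`): definitions  (owner: helper178)

* abstract: Manin vectors on a finite set with two permutations, the alternating form `omega`;
* cusps `OnePoint ℚ`, orientation cocycle `orient`, action `act` of `SL(2,ℤ)`;
* rational models `dQ`, `wMatQ`, `coresFamQ` of the matrices of `S41/Fam.lean`;
* cusp potentials, the Manin vector `manin M u` of a function on cusps, the trace `tr M` of a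
  function on triples of cusps, the area cocycle, and the pairing `pd M`.
Blueprint: reports #1251 (pairing part) and instruction "S41 RULING".
-/

set_option autoImplicit false

open CongruenceSubgroup Matrix Matrix.SpecialLinearGroup
open scoped MatrixGroups

namespace Fermat.Agent.S41.PD

/-! ## Manin vectors on a finite set with two permutations -/

section Perf

variable {X : Type*} [Fintype X] {R : Type*} [CommRing R]

/-- Manin relations for `y : X → R` (`S` of order 2, `U` of order 3), with the extra condition that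
`y` vanishes at the fixed points of `U` (automatic if `3` is a non zero divisor). -/
def IsManin (S U : Equiv.Perm X) (y : X → R) : Prop :=
  (∀ ξ, y ξ + y (S ξ) = 0) ∧ (∀ ξ, y ξ + y (U ξ) + y (U (U ξ)) = 0) ∧ ∀ ξ, U ξ = ξ → y ξ = 0

open Classical in
/-- the alternating form: sum over the `U`-orbits (chosen representative `ρ`) of
`x ρ * y (U ρ) - x (U ρ) * y ρ`. -/
noncomputable def omega (U : Equiv.Perm X) (x y : X → R) : R :=
  ∑ o : Quotient (Equiv.Perm.SameCycle.setoid U),
    (x o.out * y (U o.out) - x (U o.out) * y o.out)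

end Perf

/-! ## Cusps -/

/-- homogeneous coordinates -/
def vec : OnePoint ℚ → ℚ × ℚ
  | OnePoint.infty => (1, 0)
  | OnePoint.some x => (x, 1)

/-- determinant of two cusps -/
def dt (a b : OnePoint ℚ) : ℚ := (vec a).1 * (vec b).2 - (vec a).2 * (vec b).1

/-- the orientation cocycle -/
def orient (a b c : OnePoint ℚ) : ℤ := SignType.sign (dt a b * dt b c * dt c a)

/-- the action of `SL(2,ℤ)` on cusps -/
noncomputable def act (g : SL(2, ℤ)) (s : OnePoint ℚ) : OnePoint ℚ := mapGL ℚ g • s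

/-- the cusp `∞` -/
abbrev cInf : OnePoint ℚ := OnePoint.infty
/-- the cusp `0` -/
abbrev cZero : OnePoint ℚ := ((0 : ℚ) : OnePoint ℚ)
/-- the cusp `-1` -/
abbrev cNeg : OnePoint ℚ := ((-1 : ℚ) : OnePoint ℚ)

/-! ## Rational models of the matrices -/

/-- `GL₂(ℚ) → GL₂(ℝ)`. -/
noncomputable def jQR : GL (Fin 2) ℚ →* GL (Fin 2) ℝ := GeneralLinearGroup.map (Rat.castHom ℝ)

/-- `Γ₀(M) → GL₂(ℚ)`. -/
noncomputable def inclQ (M : ℕ) : Gamma0 M →* GL (Fin 2) ℚ := (mapGL ℚ).comp (Gamma0 M).subtype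

/-- `δ = diag(ℓ, 1)` in `GL₂(ℚ)` (junk `1` for `ℓ = 0`). -/
noncomputable def dQ (ℓ : ℕ) : GL (Fin 2) ℚ :=
  if h : (!![(ℓ : ℚ), 0; 0, 1]).det ≠ 0 then GeneralLinearGroup.mkOfDetNeZero _ h else 1

/-- `[[1, j], [0, ℓ]]` in `GL₂(ℚ)` (junk `1` for `ℓ = 0`). -/
noncomputable def uQ (ℓ j : ℕ) : GL (Fin 2) ℚ :=
  if h : (!![(1 : ℚ), (j : ℚ); 0, (ℓ : ℚ)]).det ≠ 0 then GeneralLinearGroup.mkOfDetNeZero _ h else 1

/-- rational model of `wMat`. -/
noncomputable def wMatQ (M ℓ : ℕ) (h : Nat.Coprime ℓ M) : GL (Fin 2) ℚ :=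
  mapGL ℚ (rho0SL M ℓ h) * dQ ℓ

/-- rational model of `coresFam`. -/
noncomputable def coresFamQ (M ℓ : ℕ) (h : Nat.Coprime ℓ M) : OnePoint (ZMod ℓ) → GL (Fin 2) ℚ
  | OnePoint.infty => 1
  | OnePoint.some j => mapGL ℚ (rho0SL M ℓ h * ModularGroup.T ^ (j.val : ℤ))

/-- rational model of `Lib.HeckeHom.repT`. -/
noncomputable def repTQ (ℓ : ℕ) : OnePoint (ZMod ℓ) → GL (Fin 2) ℚ
  | OnePoint.infty => dQ ℓ
  | OnePoint.some j => uQ ℓ j.val

/-! ## Cusp potentials, Manin vectors, the pairing -/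

/-- `u` is a potential of `x` on the cusps. -/
abbrev IsCuspPot {A : Type*} [AddCommGroup A] (M : ℕ) (u : OnePoint ℚ → A)
    (x : Additive (Gamma0 M) →+ A) : Prop :=
  IsPotential (inclQ M) u x

/-- a chosen cusp potential (junk `0`). -/
noncomputable def potOf {A : Type*} [AddCommGroup A] (M : ℕ) (x : Additive (Gamma0 M) →+ A) :
    OnePoint ℚ → A :=
  open Classical in if h : ∃ u, IsCuspPot M u x then h.choose else 0

/-- the coset space `SL(2,ℤ) / Γ₀(M)` (left cosets `g Γ₀(M)`, left action of `SL(2,ℤ)`). -/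
abbrev X (M : ℕ) : Type := SL(2, ℤ) ⧸ Gamma0 M

noncomputable instance instFintypeX (M : ℕ) [NeZero M] : Fintype (X M) :=
  Subgroup.fintypeQuotientOfFiniteIndex

/-- the permutation of `X M` given by `S`. -/
def pS (M : ℕ) : Equiv.Perm (X M) := MulAction.toPerm ModularGroup.S

/-- the permutation of `X M` given by `(S T)⁻¹` (so that boundaries `a [g] = ã (g⁻¹ ∞)` satisfy
`a (pU ξ) = a (pS ξ)`). -/
def pU (M : ℕ) : Equiv.Perm (X M) := MulAction.toPerm (ModularGroup.S * ModularGroup.T)⁻¹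

/-- the Manin vector of a function on cusps: `[g] ↦ u (g⁻¹ ∞) - u (g⁻¹ 0)`. -/
noncomputable def manin {A : Type*} [AddCommGroup A] (M : ℕ) (u : OnePoint ℚ → A) (ξ : X M) : A :=
  u (act ξ.out⁻¹ cInf) - u (act ξ.out⁻¹ cZero)

/-- the trace of a function on triples of cusps: sum over `[g]` of its value at
`g⁻¹ (∞, 0, -1)`. -/
noncomputable def tr {A : Type*} [AddCommGroup A] (M : ℕ) [NeZero M]
    (Φ : OnePoint ℚ → OnePoint ℚ → OnePoint ℚ → A) : A :=
  ∑ ξ : X M, Φ (act ξ.out⁻¹ cInf) (act ξ.out⁻¹ cZero) (act ξ.out⁻¹ cNeg)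

/-- the area cocycle of two functions on cusps. -/
def area {R : Type*} [CommRing R] (u v : OnePoint ℚ → R) (a b c : OnePoint ℚ) : R :=
  (u a - u b) * (v b - v c) - (u b - u c) * (v a - v b)

/-- the coboundary of a function on pairs of cusps. -/
def cobd {A : Type*} [AddCommGroup A] (b : OnePoint ℚ → OnePoint ℚ → A) (r s t : OnePoint ℚ) : A :=
  b s t - b r t + b r s

/-- **the pairing** on `Hom(Γ₀(M), ℤ)` (meaningful on `Lam M`). -/
noncomputable def pd (M : ℕ) [NeZero M] (x y : Additive (Gamma0 M) →+ ℤ) : ℤ :=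
  omega (pU M) (manin M (potOf M x)) (manin M (potOf M y))

end Fermat.Agent.S41.PD
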