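import Mathlib

/-! # S41/PD node EDGE (Mathlib only) -/

set_option autoImplicit false

namespace Fermat.Agent.S41.PD

variable {X : Type*} [Fintype X]

/-- the space of functions of the form `b + b∘U + b∘U²` with `b∘S = -b` -/
private def edgeRange (S U : Equiv.Perm X) : Submodule ℝ (X → ℝ) where
  carrier := {f | ∃ b : X → ℝ, (∀ ξ, b (S ξ) = - b ξ) ∧ ∀ ξ, b ξ + b (U ξ) + b (U (U ξ)) = f ξ}
  add_mem' := by
    rintro f g ⟨b, hb, hbf⟩ ⟨c, hc, hcg⟩
    refine ⟨b + c, fun ξ => ?_, fun ξ => ?_⟩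
    · simp only [Pi.add_apply, hb, hc]; ring
    · simp only [Pi.add_apply, ← hbf, ← hcg]; ring
  zero_mem' := ⟨0, fun ξ => by simp, fun ξ => by simp⟩
  smul_mem' := by
    rintro r f ⟨b, hb, hbf⟩
    refine ⟨r • b, fun ξ => ?_, fun ξ => ?_⟩
    · simp only [Pi.smul_apply, smul_eq_mul, hb]; ring
    · simp only [Pi.smul_apply, smul_eq_mul, ← hbf]; ring

/-- A `U`-invariant real function with sum `0` is `b + b∘U + b∘U²` with `b∘S = -b`, if `S`, `U`
generate a transitive group.  Proof: `Φ : {b | b∘S = -b} → V^U`, `b ↦ b + b∘U + b∘U²`.  If `c ∈ V^U` is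
orthogonal (dot product) to the range of `Φ` then `0 = ⟨c, Φ b⟩ = 3 ⟨c, b⟩` for all antisymmetric `b`,
so `c∘S = c`, so `c` is constant.  Hence range `Φ` = (constants)^⊥ ∩ V^U. -/
theorem exists_edge_function (S U : Equiv.Perm X) (hS : S * S = 1) (hU : U * U * U = 1)
    (htrans : ∀ f : X → ℝ, (∀ ξ, f (S ξ) = f ξ) → (∀ ξ, f (U ξ) = f ξ) → ∀ ξ η, f ξ = f η)
    (a : X → ℝ) (haU : ∀ ξ, a (U ξ) = a ξ) (hsum : ∑ ξ, a ξ = 0) :
    ∃ b : X → ℝ, (∀ ξ, b (S ξ) = - b ξ) ∧ ∀ ξ, b ξ + b (U ξ) + b (U (U ξ)) = a ξ := by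
  classical
  by_contra hcon
  have hnot : a ∉ edgeRange S U := hcon
  obtain ⟨φ, hφa, hφ⟩ := Submodule.exists_dual_map_eq_bot_of_notMem hnot inferInstance
  have hS' : ∀ ξ, S (S ξ) = ξ := fun ξ => by
    have := congrArg (fun σ : Equiv.Perm X => σ ξ) hS
    simpa using this
  have hU' : ∀ ξ, U (U (U ξ)) = ξ := fun ξ => by
    have := congrArg (fun σ : Equiv.Perm X => σ ξ) hU
    simpa using this
  -- `φ` is the dot product with `c`
  set c : X → ℝ := fun i => φ fun j => if i = j then 1 else 0 with hc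
  have hφc : ∀ f : X → ℝ, φ f = ∑ ξ, f ξ * c ξ := fun f => by
    rw [LinearMap.pi_apply_eq_sum_univ φ f]
    simp [hc]
  have hker : ∀ f ∈ edgeRange S U, φ f = 0 := fun f hf => by
    have : φ f ∈ (edgeRange S U).map φ := Submodule.mem_map_of_mem hf
    rw [hφ] at this
    exact (Submodule.mem_bot ℝ).mp this
  -- the symmetrisation of `c`
  set c' : X → ℝ := fun ξ => c ξ + c (U ξ) + c (U (U ξ)) with hc'
  have hc'U : ∀ ξ, c' (U ξ) = c' ξ := fun ξ => by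
    simp only [hc', hU']; ring
  -- adjunction
  have hadj : ∀ b : X → ℝ, ∑ ξ, (b ξ + b (U ξ) + b (U (U ξ))) * c ξ = ∑ ξ, b ξ * c' ξ := by
    intro b
    have h1 : ∑ ξ, b (U ξ) * c ξ = ∑ ξ, b ξ * c (U (U ξ)) := by
      rw [← Equiv.sum_comp U (fun ξ => b ξ * c (U (U ξ)))]
      simp only [hU']
    have h2 : ∑ ξ, b (U (U ξ)) * c ξ = ∑ ξ, b ξ * c (U ξ) := by
      rw [← Equiv.sum_comp U (fun ξ => b ξ * c (U ξ)),
        ← Equiv.sum_comp U (fun ξ => b (U ξ) * c (U (U ξ)))]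
      simp only [hU']
    simp only [hc', add_mul, mul_add, Finset.sum_add_distrib, h1, h2]
    ring
  have horth : ∀ b : X → ℝ, (∀ ξ, b (S ξ) = - b ξ) → ∑ ξ, b ξ * c' ξ = 0 := by
    intro b hb
    rw [← hadj b, ← hφc]
    exact hker _ ⟨b, hb, fun ξ => rfl⟩
  -- `c'` is `S`-invariant
  have hc'S : ∀ ξ, c' (S ξ) = c' ξ := by
    set d : X → ℝ := fun ξ => c' ξ - c' (S ξ) with hd
    have hdS : ∀ ξ, d (S ξ) = - d ξ := fun ξ => by simp only [hd, hS']; ring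
    have h1 : ∑ ξ, d ξ * c' ξ = 0 := horth d hdS
    have h2 : ∑ ξ, d ξ * c' (S ξ) = 0 := by
      have : ∑ ξ, d ξ * c' (S ξ) = ∑ ξ, d (S ξ) * c' ξ := by
        rw [← Equiv.sum_comp S (fun ξ => d ξ * c' (S ξ))]
        simp only [hS']
      rw [this]
      simp only [hdS, neg_mul, Finset.sum_neg_distrib, h1, neg_zero]
    have h3 : ∑ ξ, d ξ * d ξ = 0 := by
      have : ∀ ξ, d ξ * d ξ = d ξ * c' ξ - d ξ * c' (S ξ) := fun ξ => by
        simp only [hd]; ring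
      simp only [this, Finset.sum_sub_distrib, h1, h2, sub_zero]
    have h4 := (Finset.sum_eq_zero_iff_of_nonneg (fun ξ _ => mul_self_nonneg (d ξ))).mp h3
    intro ξ
    have h5 : d ξ = 0 := mul_self_eq_zero.mp (h4 ξ (Finset.mem_univ ξ))
    simp only [hd] at h5
    linarith
  -- hence constant
  have hconst := htrans c' hc'S hc'U
  -- `3 φ a = ⟨a, c'⟩ = 0`
  have h3 : ∑ ξ, a ξ * c' ξ = 3 * φ a := by
    rw [← hadj a, hφc, Finset.mul_sum]
    refine Finset.sum_congr rfl fun ξ _ => ?_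
    rw [haU (U ξ), haU ξ]; ring
  have h0 : ∑ ξ, a ξ * c' ξ = 0 := by
    rcases isEmpty_or_nonempty X with hX | ⟨⟨ξ₀⟩⟩
    · simp
    · have : ∀ ξ, a ξ * c' ξ = a ξ * c' ξ₀ := fun ξ => by rw [hconst ξ ξ₀]
      simp only [this, ← Finset.sum_mul, hsum, zero_mul]
  apply hφa
  linarith

end Fermat.Agent.S41.PD
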