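import Fermat.Agent.S41.PD.Defs
import Fermat.Agent.S41.PD.Farey
import Fermat.Agent.Lib.PSL2Pres

/-! # S41/PD node MANINPRES: Manin's presentation (simple connectivity of the Farey complex) -/

set_option autoImplicit false

open scoped MatrixGroups

namespace Fermat.Agent.S41.PD

namespace ManinPres

open ModularGroup

/-- the subgroup `{±1}`. -/
def Z : Subgroup SL(2, ℤ) where
  carrier := {g | g = 1 ∨ g = -1}
  mul_mem' := by
    rintro a b (rfl | rfl) (rfl | rfl)
    · left; simp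
    · right; simp
    · right; simp
    · left; simp
  one_mem' := Or.inl rfl
  inv_mem' := by
    rintro a (rfl | rfl)
    · left; simp
    · right; exact inv_neg_one

/-- `PSL(2,ℤ)` as a set with an action of `SL(2,ℤ)`. -/
abbrev Q : Type := SL(2, ℤ) ⧸ Z

theorem mk_neg (g : SL(2, ℤ)) : ((-g : SL(2, ℤ)) : Q) = (g : Q) := by
  rw [QuotientGroup.eq]
  right
  rw [inv_neg, neg_mul, inv_mul_cancel]

theorem smul_mk (h g : SL(2, ℤ)) : h • (g : Q) = ((h * g : SL(2, ℤ)) : Q) := rfl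

theorem S_mul_S_mul (g : SL(2, ℤ)) : S * (S * g) = -g := by
  rw [← mul_assoc, ← pow_two, Lib.PSL2Pres.S_sq, neg_one_mul]

theorem ST_cube_mul (g : SL(2, ℤ)) : S * T * (S * T * (S * T * g)) = -g := by
  rw [← mul_assoc, ← mul_assoc, ← pow_two, ← pow_succ, Lib.PSL2Pres.ST_cube, neg_one_mul]

variable {R : Type*} [AddCommGroup R]

/-- `(x, r) ↦ (h x, r + w x)`. -/
def perm (h : SL(2, ℤ)) (w : Q → R) : Equiv.Perm (Q × R) where
  toFun y := (h • y.1, y.2 + w y.1)
  invFun y := (h⁻¹ • y.1, y.2 - w (h⁻¹ • y.1))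
  left_inv y := by simp
  right_inv y := by simp

theorem perm_apply (h : SL(2, ℤ)) (w : Q → R) (y : Q × R) :
    perm h w y = (h • y.1, y.2 + w y.1) := rfl

theorem perm_inv_apply (h : SL(2, ℤ)) (w : Q → R) (y : Q × R) :
    (perm h w)⁻¹ y = (h⁻¹ • y.1, y.2 - w (h⁻¹ • y.1)) := rfl

section

variable (c : SL(2, ℤ) → R) (hS : ∀ g, c (S * g) = - c g)

include hS in
theorem c_neg (g : SL(2, ℤ)) : c (-g) = c g := by
  rw [← S_mul_S_mul, hS, hS, neg_neg]

include hS in
theorem c_S_inv (g : SL(2, ℤ)) : c (S⁻¹ * g) = - c g := by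
  have := hS (S⁻¹ * g)
  rw [mul_inv_cancel_left] at this
  rw [this, neg_neg]

/-- `c` on the quotient. -/
def cbar : Q → R :=
  Quotient.lift (s := QuotientGroup.leftRel Z) c (by
    intro a b hab
    have h1 : a⁻¹ * b ∈ Z := QuotientGroup.leftRel_apply.mp hab
    rcases h1 with h1 | h1
    · rw [inv_mul_eq_one.mp h1]
    · have : b = -a := by
        rw [inv_mul_eq_iff_eq_mul] at h1
        rw [h1, mul_neg, mul_one]
      rw [this, c_neg c hS])

theorem cbar_mk (g : SL(2, ℤ)) : cbar c hS (g : Q) = c g := rfl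

theorem s_sq : perm S (cbar c hS) ^ 2 = 1 := by
  ext1 ⟨x, r⟩
  induction x using Quotient.inductionOn' with
  | h g =>
    show perm S (cbar c hS) (perm S (cbar c hS) ((g : Q), r)) = ((g : Q), r)
    simp only [perm_apply, smul_mk, cbar_mk, S_mul_S_mul, mk_neg, hS]
    simp

theorem u_cube (hU : ∀ g, c g + c (S * T * g) + c (S * T * (S * T * g)) = 0) :
    perm (S * T) (fun x => cbar c hS (T • x)) ^ 3 = 1 := by
  ext1 ⟨x, r⟩
  induction x using Quotient.inductionOn' with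
  | h g =>
    set u := perm (S * T) (fun x => cbar c hS (T • x)) with hu
    show u (u (u ((g : Q), r))) = ((g : Q), r)
    have hT : ∀ g, c (T * g) = - c (S * T * g) := by
      intro g
      have := c_S_inv c hS (S * T * g)
      rwa [mul_assoc S T g, inv_mul_cancel_left, ← mul_assoc] at this
    simp only [hu, perm_apply, smul_mk, cbar_mk, ST_cube_mul, mk_neg, hT, c_neg c hS]
    have h1 := hU g
    congr 1
    have h2 : -c (S * T * g) + -c (S * T * (S * T * g)) + -c g = 0 := by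
      rw [← neg_add, ← neg_add, neg_eq_zero, ← h1]
      abel
    rw [add_assoc, add_assoc, ← add_assoc (-c (S * T * g)), h2, add_zero]

end

section Hom

variable (c : SL(2, ℤ) → R) (hS : ∀ g, c (S * g) = - c g)
  (φ : SL(2, ℤ) →* Equiv.Perm (Q × R)) (hφS : φ S = perm S (cbar c hS))
  (hφU : φ (S * T) = perm (S * T) (fun x => cbar c hS (T • x)))

include hφS hφU in
theorem phi_T (y : Q × R) : φ T y = (T • y.1, y.2) := by
  have h1 : φ T = (φ S)⁻¹ * φ (S * T) := by
    rw [← map_inv, ← map_mul, inv_mul_cancel_left]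
  rw [h1, hφS, hφU, Equiv.Perm.mul_apply, perm_inv_apply, perm_apply]
  simp only [smul_smul, inv_mul_cancel_left, add_sub_cancel_right]

include hφS hφU in
theorem phi_fst (h : SL(2, ℤ)) : ∀ y : Q × R, (φ h y).1 = h • y.1 := by
  have hmem : h ∈ Subgroup.closure ({S, T} : Set SL(2, ℤ)) := by
    rw [SpecialLinearGroup.SL2Z_generators]
    exact Subgroup.mem_top h
  induction hmem using Subgroup.closure_induction with
  | mem x hx =>
    intro y
    rcases hx with rfl | hx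
    · rw [hφS, perm_apply]
    · rw [Set.mem_singleton_iff] at hx
      subst hx
      rw [phi_T c hS φ hφS hφU]
  | one => intro y; simp
  | mul a b _ _ ha hb =>
    intro y
    rw [map_mul, Equiv.Perm.mul_apply, ha, hb, smul_smul]
  | inv a _ ha =>
    intro y
    have h1 := ha (φ a⁻¹ y)
    rw [← Equiv.Perm.mul_apply, ← map_mul, mul_inv_cancel, map_one, Equiv.Perm.one_apply] at h1
    rw [h1, inv_smul_smul]

/-- the potential on the group. -/
def pot (g : SL(2, ℤ)) : R := - (φ g (((1 : SL(2, ℤ)) : Q), 0)).2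

include hφS hφU in
theorem phi_base (g : SL(2, ℤ)) : φ g (((1 : SL(2, ℤ)) : Q), 0) = ((g : Q), - pot φ g) := by
  apply Prod.ext
  · rw [phi_fst c hS φ hφS hφU, smul_mk, mul_one]
  · simp [pot]

include hφS hφU in
theorem pot_S_mul (g : SL(2, ℤ)) : pot φ (S * g) = pot φ g - c g := by
  have h1 : φ (S * g) (((1 : SL(2, ℤ)) : Q), 0) = φ S (φ g (((1 : SL(2, ℤ)) : Q), 0)) := by
    rw [map_mul, Equiv.Perm.mul_apply]
  rw [phi_base c hS φ hφS hφU g, hφS, perm_apply] at h1
  unfold pot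
  rw [h1]
  simp only [cbar_mk, pot]
  abel

include hφS hφU in
theorem pot_T_mul (g : SL(2, ℤ)) : pot φ (T * g) = pot φ g := by
  have h1 : φ (T * g) (((1 : SL(2, ℤ)) : Q), 0) = φ T (φ g (((1 : SL(2, ℤ)) : Q), 0)) := by
    rw [map_mul, Equiv.Perm.mul_apply]
  rw [phi_T c hS φ hφS hφU] at h1
  unfold pot
  rw [h1]

include hφS hφU in
theorem pot_T_zpow_mul (k : ℤ) (g : SL(2, ℤ)) : pot φ (T ^ k * g) = pot φ g := by
  induction k using Int.induction_on with
  | zero => simp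
  | succ n ih =>
    rw [add_comm, zpow_add, zpow_one, mul_assoc, pot_T_mul c hS φ hφS hφU, ih]
  | pred n ih =>
    have h1 := pot_T_mul c hS φ hφS hφU (T ^ (-(n : ℤ) - 1) * g)
    rw [← mul_assoc, ← zpow_one_add] at h1
    rw [← h1, ← ih]
    congr 3
    ring

include hφS in
theorem pot_neg (g : SL(2, ℤ)) : pot φ (-g) = pot φ g := by
  have h1 : φ (-1) = 1 := by
    rw [← Lib.PSL2Pres.S_sq, map_pow, hφS, s_sq]
  have h2 : φ (-g) = φ g := by
    rw [← neg_one_mul, map_mul, h1, one_mul]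
  unfold pot
  rw [h2]

include hφS hφU in
theorem pot_S_inv_mul (g : SL(2, ℤ)) : pot φ (S⁻¹ * g) = pot φ g - c g := by
  have h1 := pot_S_mul c hS φ hφS hφU (S⁻¹ * g)
  rw [mul_inv_cancel_left, c_S_inv c hS] at h1
  rw [h1]
  abel

include hφS hφU in
/-- `pot` only depends on `g⁻¹ ∞`. -/
theorem pot_eq_of_act {g g' : SL(2, ℤ)} (h : act g⁻¹ cInf = act g'⁻¹ cInf) :
    pot φ g = pot φ g' := by
  have h1 : act (g' * g⁻¹) cInf = cInf := by
    rw [act_mul, h, ← act_mul, mul_inv_cancel, act_one]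
  obtain ⟨k, hk | hk⟩ := eq_of_act_inf h1
  · have : g' = T ^ k * g := by rw [← hk, inv_mul_cancel_right]
    rw [this, pot_T_zpow_mul c hS φ hφS hφU]
  · have : g' = -(T ^ k * g) := by rw [← neg_mul, ← hk, inv_mul_cancel_right]
    rw [this, pot_neg c hS φ hφS, pot_T_zpow_mul c hS φ hφS hφU]

end Hom

end ManinPres

/-- **Manin.**  A function on `SL(2,ℤ)` satisfying the two- and three-term relations is the
difference of a function on cusps.

Proof via `Lib.PSL2Pres.exists_hom`.  `c (-g) = c g` (as `S² = -1`).  Let `Ḡ = SL(2,ℤ)/±1` (or work with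
functions on `SL(2,ℤ)` invariant under `-1`), `H = (Ḡ → R) ⋊ Perm Ḡ`, elements `(z, σ)` with
`(z, σ) (z', σ') = (z' + z ∘ σ', σ σ')`  (i.e. `z_{hk}(g) = z_k(g) + z_h(k g)`).
`s = (c, S·)`, `u = (g ↦ c (T g), ST·)`.  `s² = 1` by the 2-term relation, `u³ = 1` because
`c (T g) = c (S⁻¹ (ST) g) = - c (ST g)` and the 3-term relation.  The homomorphism `h ↦ (z_h, h·)` has
`z_S = c`, `z_T = 0`.  Put `F g = - z_g (1)`; then `F g - F (h g) = z_h g`, so `F (T g) = F g`,
`F (-g) = F g`, `c g = F g - F (S g)`.  `g⁻¹ ∞ = g'⁻¹ ∞` iff `g' = ± T^k g`, so `F g = f (g⁻¹ ∞)`, and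
`(S g)⁻¹ ∞ = g⁻¹ 0`. -/
theorem exists_cusp_function {R : Type*} [AddCommGroup R] (c : SL(2, ℤ) → R)
    (hS : ∀ g, c (ModularGroup.S * g) = - c g)
    (hU : ∀ g, c g + c (ModularGroup.S * ModularGroup.T * g)
      + c (ModularGroup.S * ModularGroup.T * (ModularGroup.S * ModularGroup.T * g)) = 0) :
    ∃ f : OnePoint ℚ → R, ∀ g, c g = f (act g⁻¹ cInf) - f (act g⁻¹ cZero) := by
  obtain ⟨φ, hφS, hφU⟩ := Lib.PSL2Pres.exists_hom _ _ (ManinPres.s_sq c hS)
    (ManinPres.u_cube c hS hU)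
  choose γ hγ using exists_act_inf
  refine ⟨fun s => ManinPres.pot φ (γ s)⁻¹, fun g => ?_⟩
  have h1 : ManinPres.pot φ (γ (act g⁻¹ cInf))⁻¹ = ManinPres.pot φ g :=
    ManinPres.pot_eq_of_act c hS φ hφS hφU (by rw [inv_inv, hγ])
  have h2 : ManinPres.pot φ (γ (act g⁻¹ cZero))⁻¹ = ManinPres.pot φ (ModularGroup.S⁻¹ * g) :=
    ManinPres.pot_eq_of_act c hS φ hφS hφU (by
      rw [inv_inv, hγ, mul_inv_rev, inv_inv, act_mul, act_S_inf])
  simp only [h1, h2, ManinPres.pot_S_inv_mul c hS φ hφS hφU]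
  abel

end Fermat.Agent.S41.PD
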