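import Fermat.Agent.S41.PD.Defs

/-! # S41/PD node PERFECT: the radical of `omega` on Manin vectors consists of boundaries -/

set_option autoImplicit false
set_option linter.unusedSectionVars false

namespace Fermat.Agent.S41.PD

variable {X : Type*} [Fintype X]

section aux

variable {F : Type*} [Field F]

/-- the functions invariant under a permutation. -/
private def perfectInv (F : Type*) [Field F] (T : Equiv.Perm X) : Submodule F (X → F) where
  carrier := {b | ∀ ξ, b (T ξ) = b ξ}
  add_mem' := by
    intro a b ha hb ξ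
    show a (T ξ) + b (T ξ) = a ξ + b ξ
    rw [ha ξ, hb ξ]
  zero_mem' := fun _ => rfl
  smul_mem' := by
    intro c a ha ξ
    show c • a (T ξ) = c • a ξ
    rw [ha ξ]

private theorem mem_perfectInv {T : Equiv.Perm X} {b : X → F} :
    b ∈ perfectInv F T ↔ ∀ ξ, b (T ξ) = b ξ := Iff.rfl

/-- double orthogonal for the dot product. -/
private theorem perfect_mem_of_orth (W : Submodule F (X → F)) (b : X → F)
    (h : ∀ c : X → F, (∀ w ∈ W, ∑ ξ, c ξ * w ξ = 0) → ∑ ξ, c ξ * b ξ = 0) : b ∈ W := by
  classical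
  by_contra hb
  obtain ⟨f, hf, hW⟩ := Submodule.exists_dual_map_eq_bot_of_notMem hb inferInstance
  have key : ∀ w : X → F, f w = ∑ ξ, f (fun j => if ξ = j then 1 else 0) * w ξ := by
    intro w
    rw [LinearMap.pi_apply_eq_sum_univ f w]
    exact Finset.sum_congr rfl fun ξ _ => by rw [smul_eq_mul, mul_comm]
  apply hf
  rw [key]
  apply h
  intro w hw
  rw [← key]
  have h1 : f w ∈ W.map f := Submodule.mem_map_of_mem hw
  rw [hW] at h1
  exact (Submodule.mem_bot F).1 h1

private theorem perfect_sum_mul_ite (c : X → F) (ξ : X) [DecidableEq X] :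
    ∑ j, c j * (if j = ξ then 1 else 0) = c ξ := by
  simp

/-- vectors orthogonal to the invariants of `S` and of `U` are Manin vectors. -/
private theorem perfect_isManin_of_orth (S U : Equiv.Perm X) (hS : S * S = 1)
    (hU : U * U * U = 1) (c : X → F)
    (hc : ∀ w ∈ perfectInv F S ⊔ perfectInv F U, ∑ ξ, c ξ * w ξ = 0) : IsManin S U c := by
  classical
  have hS2 : ∀ z, S (S z) = z := fun z => by
    have := congrArg (fun f : Equiv.Perm X => f z) hS
    simpa using this
  have hU3 : ∀ z, U (U (U z)) = z := fun z => by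
    have := congrArg (fun f : Equiv.Perm X => f z) hU
    simpa using this
  refine ⟨fun ξ => ?_, fun ξ => ?_, fun ξ hξ => ?_⟩
  · have hw : (fun j => (if j = ξ then (1 : F) else 0) + (if j = S ξ then 1 else 0)) ∈
        perfectInv F S ⊔ perfectInv F U := by
      refine Submodule.mem_sup_left (mem_perfectInv.2 fun j => ?_)
      have e1 : S j = ξ ↔ j = S ξ := ⟨fun h => by rw [← h, hS2], fun h => by rw [h, hS2]⟩
      have e2 : S j = S ξ ↔ j = ξ := S.injective.eq_iff
      simp only [e1, e2]
      exact add_comm _ _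
    have := hc _ hw
    simp only [mul_add, Finset.sum_add_distrib, perfect_sum_mul_ite] at this
    exact this
  · have hw : (fun j => (if j = ξ then (1 : F) else 0) + (if j = U ξ then 1 else 0) +
        (if j = U (U ξ) then 1 else 0)) ∈ perfectInv F S ⊔ perfectInv F U := by
      refine Submodule.mem_sup_right (mem_perfectInv.2 fun j => ?_)
      have e1 : U j = ξ ↔ j = U (U ξ) := ⟨fun h => by rw [← h, hU3], fun h => by rw [h, hU3]⟩
      have e2 : U j = U ξ ↔ j = ξ := U.injective.eq_iff
      have e3 : U j = U (U ξ) ↔ j = U ξ := U.injective.eq_iff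
      simp only [e1, e2, e3]
      ring
    have := hc _ hw
    simp only [mul_add, Finset.sum_add_distrib, perfect_sum_mul_ite] at this
    exact this
  · have hw : (fun j => (if j = ξ then (1 : F) else 0)) ∈ perfectInv F S ⊔ perfectInv F U := by
      refine Submodule.mem_sup_right (mem_perfectInv.2 fun j => ?_)
      have e1 : U j = ξ ↔ j = ξ :=
        ⟨fun h => U.injective (by rw [h, hξ]), fun h => by rw [h, hξ]⟩
      simp only [e1]
    have := hc _ hw
    simp only [perfect_sum_mul_ite] at this
    exact this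

open Classical in
/-- the vector `b₀ y` with `omega U x y = ⟨x, b₀ y⟩`. -/
private noncomputable def perfectB (U : Equiv.Perm X) (y : X → F) (ξ : X) : F :=
  ∑ o : Quotient (Equiv.Perm.SameCycle.setoid U),
    (y (U o.out) * (if ξ = o.out then 1 else 0) - y o.out * (if ξ = U o.out then 1 else 0))

private theorem perfect_omega_eq (U : Equiv.Perm X) (x y : X → F) :
    omega U x y = ∑ ξ, x ξ * perfectB U y ξ := by
  classical
  unfold omega perfectB
  simp only [Finset.mul_sum]
  rw [Finset.sum_comm]
  refine Finset.sum_congr rfl fun o _ => ?_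
  simp only [mul_sub, Finset.sum_sub_distrib]
  congr 1
  · rw [Finset.sum_eq_single o.out]
    · simp
    · intro j _ hj
      simp [hj]
    · intro h
      exact absurd (Finset.mem_univ _) h
  · rw [Finset.sum_eq_single (U o.out)]
    · simp
    · intro j _ hj
      simp [hj]
    · intro h
      exact absurd (Finset.mem_univ _) h

open Classical in
private theorem perfectB_eq (U : Equiv.Perm X) (y : X → F) (ξ : X) :
    perfectB U y ξ =
      y (U (Quotient.mk (Equiv.Perm.SameCycle.setoid U) ξ).out) *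
          (if ξ = (Quotient.mk (Equiv.Perm.SameCycle.setoid U) ξ).out then 1 else 0) -
        y (Quotient.mk (Equiv.Perm.SameCycle.setoid U) ξ).out *
          (if ξ = U (Quotient.mk (Equiv.Perm.SameCycle.setoid U) ξ).out then 1 else 0) := by
  unfold perfectB
  rw [Finset.sum_eq_single (Quotient.mk (Equiv.Perm.SameCycle.setoid U) ξ)]
  · intro o _ ho
    have h1 : ξ ≠ o.out := by
      intro h
      apply ho
      rw [h, Quotient.out_eq]
    have h2 : ξ ≠ U o.out := by
      intro h
      apply ho
      rw [h]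
      refine Eq.trans (Quotient.out_eq o).symm (Quotient.sound ?_)
      exact (Equiv.Perm.sameCycle_apply_right.2 (Equiv.Perm.SameCycle.refl U o.out))
    simp [h1, h2]
  · intro h
    exact absurd (Finset.mem_univ _) h

/-- the key identity `b₀ y ∘ U - b₀ y = y ∘ U²`. -/
private theorem perfectB_key (S U : Equiv.Perm X) (hU : U * U * U = 1) (y : X → F)
    (hy : IsManin S U y) (ξ : X) :
    perfectB U y (U ξ) - perfectB U y ξ = y (U (U ξ)) := by
  classical
  have hU3 : ∀ z, U (U (U z)) = z := fun z => by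
    have := congrArg (fun f : Equiv.Perm X => f z) hU
    simpa using this
  have hq : Quotient.mk (Equiv.Perm.SameCycle.setoid U) (U ξ) =
      Quotient.mk (Equiv.Perm.SameCycle.setoid U) ξ :=
    Quotient.sound (Equiv.Perm.sameCycle_apply_left.2 (Equiv.Perm.SameCycle.refl U ξ))
  rw [perfectB_eq, perfectB_eq, hq]
  set ρ := (Quotient.mk (Equiv.Perm.SameCycle.setoid U) ξ).out with hρ
  have hsc : Equiv.Perm.SameCycle U ρ ξ := Quotient.mk_out (s := Equiv.Perm.SameCycle.setoid U) ξ
  have hcases : ξ = ρ ∨ ξ = U ρ ∨ ξ = U (U ρ) := by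
    obtain ⟨i, hi⟩ := hsc.exists_nat_pow_eq
    have h3 : U ^ 3 = 1 := by rw [pow_succ, pow_two, hU]
    have hi' : (U ^ (i % 3)) ρ = ξ := by
      rw [← hi]
      conv_rhs => rw [← Nat.mod_add_div i 3, pow_add, pow_mul, h3, one_pow, mul_one]
    have hlt : i % 3 < 3 := Nat.mod_lt _ (by norm_num)
    generalize i % 3 = r at hi' hlt
    interval_cases r
    · left; simpa using hi'.symm
    · right; left; simpa using hi'.symm
    · right; right
      rw [← hi', pow_two]
      rfl
  have m := hy.2.1 ρ
  by_cases hfix : U ρ = ρ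
  · have hξ : ξ = ρ := by
      rcases hcases with h | h | h
      · exact h
      · rw [h, hfix]
      · rw [h, hfix, hfix]
    have h0 : y ρ = 0 := hy.2.2 ρ hfix
    rw [hξ, hfix, hfix, h0]
    simp
  · have n1 : ρ ≠ U ρ := fun h => hfix h.symm
    have n2 : U (U ρ) ≠ ρ := fun h => hfix (by
      have := congrArg U h
      rw [hU3] at this
      exact this.symm)
    have n3 : U (U ρ) ≠ U ρ := fun h => hfix (U.injective h)
    rcases hcases with h | h | h
    · rw [h]
      simp only [hfix, n1, if_true, if_false]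
      linear_combination (-1 : F) * m
    · rw [h, hU3]
      simp only [hfix, n2, n3, if_true, if_false]
      ring
    · rw [h, hU3]
      simp only [n1, n2, n3, if_true, if_false]
      ring

end aux

/-- **perfectness.**  `V = X → ZMod p` with the dot product.
`Z = {Manin vectors} = (V^S + V^U)^⊥` (`p` odd: `V^S` is spanned by `δ_ξ + δ_{Sξ}`, `V^U` by the
indicator functions of the `U`-orbits), so `Z^⊥ = V^S + V^U`.
`omega U x y = ⟨x, b₀ y⟩` with `b₀ y = (y₁, -y₀, 0)` on the orbit `(ρ, Uρ, U²ρ)`, `ρ = out`, and `0` at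
fixed points.  If `b₀ y = b_S + b_U` put `a = (y + b_S)/2`: then `a ∘ S - a = -y = a ∘ U - a`. -/
theorem exists_boundary_of_radical (p : ℕ) [Fact p.Prime] (hp2 : p ≠ 2) (S U : Equiv.Perm X)
    (hS : S * S = 1) (hU : U * U * U = 1) (y : X → ZMod p) (hy : IsManin S U y)
    (h : ∀ x : X → ZMod p, IsManin S U x → omega U x y = 0) :
    ∃ a : X → ZMod p, (∀ ξ, a (U ξ) = a (S ξ)) ∧ ∀ ξ, y ξ = a ξ - a (S ξ) := by
  have h2 : (2 : ZMod p) ≠ 0 := by
    intro h0
    have h1 : ((2 : ℕ) : ZMod p) = 0 := by exact_mod_cast h0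
    rw [ZMod.natCast_eq_zero_iff] at h1
    exact hp2 ((Nat.prime_dvd_prime_iff_eq Fact.out Nat.prime_two).1 h1)
  have hb : perfectB U y ∈ perfectInv (ZMod p) S ⊔ perfectInv (ZMod p) U := by
    apply perfect_mem_of_orth
    intro c hc
    rw [← perfect_omega_eq]
    exact h c (perfect_isManin_of_orth S U hS hU c hc)
  obtain ⟨bS, hbS, bU, hbU, hsum⟩ := Submodule.mem_sup.1 hb
  rw [mem_perfectInv] at hbS hbU
  refine ⟨fun ξ => 2⁻¹ * (y ξ + bS ξ), fun ξ => ?_, fun ξ => ?_⟩
  · have key := perfectB_key S U hU y hy ξ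
    have e1 : bS (U ξ) + bU (U ξ) = perfectB U y (U ξ) := congrFun hsum (U ξ)
    have e2 : bS ξ + bU ξ = perfectB U y ξ := congrFun hsum ξ
    have e3 := hbU ξ
    have e4 := hbS ξ
    have m1 := hy.1 ξ
    have m2 := hy.2.1 ξ
    show 2⁻¹ * (y (U ξ) + bS (U ξ)) = 2⁻¹ * (y (S ξ) + bS (S ξ))
    congr 1
    linear_combination key + e1 - e2 - e3 - e4 + m2 - m1
  · have e4 := hbS ξ
    have m1 := hy.1 ξ
    show y ξ = 2⁻¹ * (y ξ + bS ξ) - 2⁻¹ * (y (S ξ) + bS (S ξ))
    rw [e4]
    have e5 : y (S ξ) = - y ξ := by linear_combination m1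
    rw [e5]
    field_simp
    ring

end Fermat.Agent.S41.PD
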