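import Fermat.Agent.S41.PD.Bilin
import Fermat.Agent.S41.PD.Perfect
import Fermat.Agent.S41.PD.ManinPres

/-!
# S41/PD, middle layer: the pairing is nondegenerate modulo every odd prime  (owner: helper101)

* `exists_hom_of_isManin` : every Manin vector mod `p` is the Manin vector of a cusp potential of a
  class in `homPE M (ZMod p)`;
* `pdL_nondegenerate_right`, `pdL_nondegenerate_left` : **PD2**.
-/

set_option autoImplicit false

open CongruenceSubgroup Matrix Matrix.SpecialLinearGroup ModularGroup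
open scoped MatrixGroups

namespace Fermat.Agent.S41.PD

open Fermat.Agent.Lib.HeckeHom
open Fermat.Agent.S16.Lift (castTo castTo_apply homPE mem_homPE)

/-- a function on `SL(2,ℤ)` which is left invariant under `S` and `T` is constant. -/
theorem const_of_left_invariant {B : Type*} (F : SL(2, ℤ) → B) (hS : ∀ g, F (S * g) = F g)
    (hT : ∀ g, F (T * g) = F g) (g : SL(2, ℤ)) : F g = F 1 := by
  have key : ∀ γ : SL(2, ℤ), ∀ g : SL(2, ℤ), F (γ * g) = F g := by
    intro γ
    have hγ : γ ∈ Subgroup.closure {S, T} := by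
      simp [_root_.SpecialLinearGroup.SL2Z_generators]
    induction hγ using Subgroup.closure_induction with
    | one => intro g; rw [one_mul]
    | mem x hx =>
      intro g
      simp only [Set.mem_insert_iff, Set.mem_singleton_iff] at hx
      rcases hx with rfl | rfl
      · exact hS g
      · exact hT g
    | mul x y _ _ hx hy =>
      intro g
      rw [mul_assoc, hx, hy]
    | inv x _ hx =>
      intro g
      have := hx (x⁻¹ * g)
      rw [mul_inv_cancel_left] at this
      exact this.symm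
  have := key g 1
  rwa [mul_one] at this

theorem act_T_pow_inf (k : ℕ) : act (T ^ k) cInf = cInf := by
  induction k with
  | zero => rw [pow_zero, act_one]
  | succ k ih => rw [pow_succ, act_mul, act_T_inf, ih]

theorem act_neg_one_pow (j : ℕ) (s : OnePoint ℚ) : act ((-1 : SL(2, ℤ)) ^ j) s = s := by
  rcases neg_one_pow_eq_or SL(2, ℤ) j with h | h
  · rw [h, act_one]
  · rw [h, act_neg, act_one]

theorem act_ST_pow_inf (k : ℕ) :
    act ((S * T) ^ k) cInf = cInf ∨ act ((S * T) ^ k) cInf = cZero ∨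
      act ((S * T) ^ k) cInf = cNeg := by
  induction k with
  | zero => left; rw [pow_zero, act_one]
  | succ k ih =>
    rw [pow_succ', act_mul]
    rcases ih with h | h | h
    · right; left; rw [h, act_ST_inf]
    · right; right; rw [h, act_ST_zero]
    · left; rw [h, act_ST_neg]

theorem conj_pow' (g σ : SL(2, ℤ)) (n : ℕ) : (g⁻¹ * σ * g) ^ n = g⁻¹ * σ ^ n * g := by
  have : g⁻¹ * σ * g = g⁻¹ * σ * g⁻¹⁻¹ := by rw [inv_inv]
  rw [this, conj_pow, inv_inv]

/-- every Manin vector modulo an odd prime comes from a class in `homPE`. -/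
theorem exists_hom_of_isManin {p : ℕ} [Fact p.Prime] (hp2 : p ≠ 2) {M : ℕ} (z : X M → ZMod p)
    (hz : IsManin (pS M) (pU M) z) :
    ∃ (x : Additive (Gamma0 M) →+ ZMod p) (f : OnePoint ℚ → ZMod p),
      x ∈ homPE M (ZMod p) ∧ IsCuspPot M f x ∧ manin M f = z := by
  have h2 : (2 : ZMod p) ≠ 0 := by
    intro h0
    have h1 : ((2 : ℕ) : ZMod p) = 0 := by exact_mod_cast h0
    rw [ZMod.natCast_eq_zero_iff] at h1
    exact hp2 ((Nat.prime_dvd_prime_iff_eq Fact.out Nat.prime_two).1 h1)
  set c : SL(2, ℤ) → ZMod p := fun g => z (QuotientGroup.mk g) with hc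
  have hcS : ∀ g, c (S * g) = - c g := by
    intro g
    have := hz.1 (QuotientGroup.mk g)
    rw [pS_mk] at this
    exact eq_neg_of_add_eq_zero_right this
  have hcU : ∀ g, c g + c (S * T * g) + c (S * T * (S * T * g)) = 0 := by
    intro g
    have := hz.2.1 (QuotientGroup.mk (S * T * (S * T * g)))
    rw [pU_mk, inv_mul_cancel_left, pU_mk, inv_mul_cancel_left] at this
    simp only [hc]
    linear_combination this
  obtain ⟨f, hf⟩ := exists_cusp_function c hcS hcU
  -- the differences `f (γ s) - f s` do not depend on `s`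
  have hD : ∀ (γ : Gamma0 M) (s t : OnePoint ℚ),
      f (act (γ : SL(2, ℤ)) s) - f s = f (act (γ : SL(2, ℤ)) t) - f t := by
    intro γ
    refine const_of_farey (fun s => f (act (γ : SL(2, ℤ)) s) - f s) ?_
    intro g
    have h1 := hf g⁻¹
    have h3 := hf (g⁻¹ * ((γ⁻¹ : Gamma0 M) : SL(2, ℤ)))
    have h4 : c (g⁻¹ * ((γ⁻¹ : Gamma0 M) : SL(2, ℤ))) = c g⁻¹ := by
      simp only [hc]
      rw [QuotientGroup.mk_mul_of_mem _ (γ⁻¹ : Gamma0 M).2]
    have h5 : (g⁻¹ * ((γ⁻¹ : Gamma0 M) : SL(2, ℤ)))⁻¹ = (γ : SL(2, ℤ)) * g := by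
      rw [_root_.mul_inv_rev, inv_inv]
      simp
    rw [h4, h5, act_mul, act_mul] at h3
    rw [inv_inv] at h1
    show f (act (γ : SL(2, ℤ)) (act g cInf)) - f (act g cInf) =
      f (act (γ : SL(2, ℤ)) (act g cZero)) - f (act g cZero)
    linear_combination h1 - h3
  let x : Additive (Gamma0 M) →+ ZMod p := AddMonoidHom.mk'
    (fun γ => f (act ((Additive.toMul γ : Gamma0 M) : SL(2, ℤ)) cInf) - f cInf) (by
      intro γ γ'
      have e : ((Additive.toMul (γ + γ') : Gamma0 M) : SL(2, ℤ)) =
        ((Additive.toMul γ : Gamma0 M) : SL(2, ℤ)) * ((Additive.toMul γ' : Gamma0 M) : SL(2, ℤ)) :=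
        rfl
      rw [e, act_mul]
      have := hD (Additive.toMul γ) (act ((Additive.toMul γ' : Gamma0 M) : SL(2, ℤ)) cInf) cInf
      linear_combination this)
  have hpot : IsCuspPot M f x := by
    intro γ s
    exact hD γ s cInf
  refine ⟨x, f, ?_, hpot, ?_⟩
  · rw [mem_homPE]
    intro σ hσ k g h
    simp only [Set.mem_insert_iff, Set.mem_singleton_iff] at hσ
    rcases hσ with rfl | rfl | rfl
    · -- elliptic of order dividing 4
      have h4 : (⟨_, h⟩ : Gamma0 M) ^ 4 = 1 := by
        apply Subtype.ext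
        show (g⁻¹ * S ^ k * g) ^ 4 = 1
        rw [conj_pow', ← pow_mul, mul_comm k 4, pow_mul, show (4 : ℕ) = 2 * 2 from rfl, pow_mul,
          Lib.PSL2Pres.S_sq]
        simp
      have h0 : (4 : ℕ) • x (Additive.ofMul (⟨_, h⟩ : Gamma0 M)) = 0 := by
        rw [← map_nsmul, ← ofMul_pow, h4]
        simp
      rw [nsmul_eq_mul] at h0
      have h44 : ((4 : ℕ) : ZMod p) ≠ 0 := by
        have : ((4 : ℕ) : ZMod p) = 2 * 2 := by norm_num
        rw [this]
        exact mul_ne_zero h2 h2
      exact (mul_eq_zero.1 h0).resolve_left h44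
    · -- elliptic of order dividing 6
      by_cases h3 : 3 ∣ k
      · obtain ⟨j, rfl⟩ := h3
        refine hpot.eq_zero_of_fixed (x := cInf) ?_
        rw [inclQ_smul]
        show act (g⁻¹ * (S * T) ^ (3 * j) * g) cInf = cInf
        rw [pow_mul, Lib.PSL2Pres.ST_cube, act_mul, act_mul, act_neg_one_pow, act_inv_act]
      · -- then `g⁻¹ (S T) g ∈ Γ₀(M)`
        have hcop : Int.gcd (k : ℤ) 3 = 1 := by
          have : Nat.Coprime k 3 := by
            rw [Nat.coprime_comm]
            exact (Nat.Prime.coprime_iff_not_dvd Nat.prime_three).2 h3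
          exact this
        have hτ : g⁻¹ * (S * T) * g ∈ Gamma0 M := by
          have hb := Int.gcd_eq_gcd_ab (k : ℤ) 3
          rw [hcop] at hb
          have e1 : g⁻¹ * (S * T) * g = (g⁻¹ * (S * T) * g) ^ ((1 : ℕ) : ℤ) := by simp
          rw [e1, hb, _root_.zpow_add, _root_.zpow_mul, _root_.zpow_mul, zpow_natCast, conj_pow',
            show (3 : ℤ) = ((3 : ℕ) : ℤ) from rfl, zpow_natCast, conj_pow', Lib.PSL2Pres.ST_cube]
          refine Subgroup.mul_mem _ (Subgroup.zpow_mem _ h _) (Subgroup.zpow_mem _ ?_ _)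
          have : g⁻¹ * (-1 : SL(2, ℤ)) * g = -1 := by
            rw [mul_neg, mul_one, neg_mul, inv_mul_cancel]
          rw [this]
          exact neg_one_mem_Gamma0 M
        have hfix : pU M (QuotientGroup.mk g) = QuotientGroup.mk g := (pU_mk_eq_iff g).2 hτ
        have z0 : c g = 0 := hz.2.2 _ hfix
        have z1 : c ((S * T)⁻¹ * g) = 0 := by
          have := hz.2.2 _ hfix
          rw [← hfix, pU_mk] at this
          exact this
        rw [hf g] at z0
        rw [hf, act_U_mul_inv, act_U_mul_inv, act_ST_inf, act_ST_zero] at z1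
        have hval := hpot ⟨_, h⟩ (act g⁻¹ cInf)
        rw [inclQ_smul] at hval
        rw [← hval]
        show f (act (g⁻¹ * (S * T) ^ k * g) (act g⁻¹ cInf)) - f (act g⁻¹ cInf) = 0
        rw [act_mul, act_act_inv, act_mul]
        rcases act_ST_pow_inf k with e | e | e <;> rw [e]
        · ring
        · linear_combination -z0
        · linear_combination -z0 - z1
    · -- parabolic
      refine hpot.eq_zero_of_fixed (x := act g⁻¹ cInf) ?_
      rw [inclQ_smul]
      show act (g⁻¹ * T ^ k * g) (act g⁻¹ cInf) = act g⁻¹ cInf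
      rw [act_mul, act_act_inv, act_mul, act_T_pow_inf]
  · funext ξ
    obtain ⟨g, rfl⟩ := QuotientGroup.mk_surjective ξ
    rw [manin_mk hpot, ← hf]

variable {M : ℕ} [NeZero M]

/-- **PD2**: the pairing is nondegenerate modulo every odd prime (right radical). -/
theorem pdL_nondegenerate_right (p : ℕ) [Fact p.Prime] (hp2 : p ≠ 2) (y : Lam M)
    (h : ∀ x : Lam M, (p : ℤ) ∣ pdL M x y) : ∃ y' : Lam M, y = p • y' := by
  have hv := isCuspPot_potOf y.2
  set v := potOf M y.1 with hvdef
  set v' : OnePoint ℚ → ZMod p := fun s => ((v s : ℤ) : ZMod p) with hv'def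
  have hv' : IsCuspPot M v' (castTo (ZMod p) y.1) := hv.map (Int.castAddHom (ZMod p))
  have hmv : manin M v' = fun ξ => ((manin M v ξ : ℤ) : ZMod p) :=
    manin_map M (Int.castAddHom (ZMod p)) v
  have hm : IsManin (pS M) (pU M) (manin M v') := by
    rw [hmv]
    exact (isManin_manin_int hv).map (Int.castRingHom (ZMod p))
  have hrad : ∀ z : X M → ZMod p, IsManin (pS M) (pU M) z → omega (pU M) z (manin M v') = 0 := by
    intro z hz
    obtain ⟨x', f, hx', hf, rfl⟩ := exists_hom_of_isManin hp2 z hz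
    obtain ⟨x, hx⟩ := redHom_surjective M p ⟨x', hx'⟩
    have hxx : castTo (ZMod p) x.1 = x' := congrArg Subtype.val hx
    have hu := isCuspPot_potOf x.2
    have hu' : IsCuspPot M (fun s => ((potOf M x.1 s : ℤ) : ZMod p)) x' := by
      rw [← hxx]
      exact hu.map (Int.castAddHom (ZMod p))
    rw [omega_manin_congr_left hf hu' hm, hmv,
      show manin M (fun s => ((potOf M x.1 s : ℤ) : ZMod p)) =
        fun ξ => ((manin M (potOf M x.1) ξ : ℤ) : ZMod p) from
        manin_map M (Int.castAddHom (ZMod p)) (potOf M x.1)]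
    have := omega_map (Int.castRingHom (ZMod p)) (pU M) (manin M (potOf M x.1)) (manin M v)
    simp only [eq_intCast] at this
    rw [this, ← pdL_eq x y hu hv]
    exact (ZMod.intCast_zmod_eq_zero_iff_dvd _ p).2 (h x)
  obtain ⟨a, haU, ha⟩ := exists_boundary_of_radical p hp2 (pS M) (pU M) (pS_mul_pS M)
    (pU_mul_pU_mul_pU M) (manin M v') hm hrad
  set F : SL(2, ℤ) → ZMod p := fun g => v' (act g⁻¹ cInf) - a (QuotientGroup.mk g) with hF
  have hFS : ∀ g, F (S * g) = F g := by
    intro g
    have h1 := ha (QuotientGroup.mk g)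
    rw [manin_mk hv', pS_mk] at h1
    simp only [hF]
    rw [act_S_mul_inv, act_S_inv_inf]
    linear_combination -h1
  have hFT : ∀ g, F (T * g) = F g := by
    intro g
    have h1 := haU (QuotientGroup.mk (S * T * g))
    rw [pU_mk, pS_mk, inv_mul_cancel_left, mul_assoc, ← mul_assoc S S, ← pow_two,
      Lib.PSL2Pres.S_sq, neg_one_mul, mk_neg_eq] at h1
    simp only [hF]
    rw [_root_.mul_inv_rev, act_mul, act_T_inv_inf, h1]
  have hconst := const_of_left_invariant F hFS hFT
  rw [← redHom_eq_zero_iff]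
  apply Subtype.ext
  refine AddMonoidHom.ext fun γ => ?_
  obtain ⟨γ, rfl⟩ := Additive.ofMul.surjective γ
  rw [coe_redHom]
  show castTo (ZMod p) y.1 (Additive.ofMul γ) = 0
  rw [← hv' γ cInf, inclQ_smul]
  have h1 := hconst ((γ : SL(2, ℤ))⁻¹)
  simp only [hF] at h1
  have h2 : (QuotientGroup.mk ((γ : SL(2, ℤ))⁻¹) : X M) = QuotientGroup.mk 1 := by
    rw [QuotientGroup.eq, inv_inv, mul_one]
    exact γ.2
  rw [h2, inv_inv, inv_one, act_one] at h1
  linear_combination h1

/-- **PD2**, left radical (the shape of `Abs.ribet_abstract`). -/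
theorem pdL_nondegenerate_left (p : ℕ) [Fact p.Prime] (hp2 : p ≠ 2) (x : Lam M)
    (h : ∀ y : Lam M, (p : ℤ) ∣ pdL M x y) : ∃ x' : Lam M, x = p • x' :=
  pdL_nondegenerate_right p hp2 x fun y => by
    rw [pdL_swap]
    exact (dvd_neg).2 (h y)

end Fermat.Agent.S41.PD
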