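import Fermat.Agent.S41.PD.Defs

/-! # S41/PD node ORIENT: the orientation cocycle on `ℙ¹(ℚ)` -/

set_option autoImplicit false

open scoped MatrixGroups

namespace Fermat.Agent.S41.PD

/-! ### Helper lemmas -/

theorem Orient_dt_swap (a b : OnePoint ℚ) : dt b a = - dt a b := by
  unfold dt
  ring

@[simp] theorem Orient_dt_infty_infty : dt OnePoint.infty OnePoint.infty = 0 := by
  simp [dt, vec]

@[simp] theorem Orient_dt_infty_some (y : ℚ) : dt OnePoint.infty (OnePoint.some y) = 1 := by
  simp [dt, vec]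

@[simp] theorem Orient_dt_some_infty (x : ℚ) : dt (OnePoint.some x) OnePoint.infty = -1 := by
  simp [dt, vec]

@[simp] theorem Orient_dt_some_some (x y : ℚ) :
    dt (OnePoint.some x) (OnePoint.some y) = x - y := by
  simp [dt, vec]

/-- the sign of `dt`, a `1`-cochain whose coboundary is `- orient`. -/
def Orient_sg (a b : OnePoint ℚ) : ℤ := SignType.sign (dt a b)

theorem Orient_sg_swap (a b : OnePoint ℚ) : Orient_sg b a = - Orient_sg a b := by
  unfold Orient_sg
  rw [Orient_dt_swap a b, Left.sign_neg, SignType.coe_neg]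

theorem Orient_sign_three (x y z : ℚ) :
    ((SignType.sign ((x - y) * (y - z) * (z - x)) : SignType) : ℤ) =
      -(((SignType.sign (x - y) : SignType) : ℤ) + ((SignType.sign (y - z) : SignType) : ℤ) +
        ((SignType.sign (z - x) : SignType) : ℤ)) := by
  rw [sign_mul, sign_mul]
  rcases lt_trichotomy x y with h1 | h1 | h1 <;> rcases lt_trichotomy y z with h2 | h2 | h2 <;>
    rcases lt_trichotomy z x with h3 | h3 | h3 <;>
    first
    | (exfalso; linarith)
    | (subst_vars; simp_all [sign_pos, sign_neg, sub_pos, sub_neg])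

/-- `orient` is (minus) the coboundary of `Orient_sg`. -/
theorem Orient_eq_sg (a b c : OnePoint ℚ) :
    orient a b c = -(Orient_sg a b + Orient_sg b c + Orient_sg c a) := by
  unfold orient Orient_sg
  cases a with
  | infty =>
    cases b with
    | infty =>
      cases c with
      | infty => simp
      | coe z => simp
    | coe y =>
      cases c with
      | infty => simp
      | coe z =>
        simp only [Orient_dt_infty_some, Orient_dt_some_some, Orient_dt_some_infty, one_mul,
          mul_neg, mul_one, Left.sign_neg, sign_one, SignType.coe_neg, SignType.coe_one]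
        ring
  | coe x =>
    cases b with
    | infty =>
      cases c with
      | infty => simp
      | coe z =>
        simp only [Orient_dt_infty_some, Orient_dt_some_some, Orient_dt_some_infty, one_mul,
          neg_mul, mul_one, Left.sign_neg, sign_one, SignType.coe_neg, SignType.coe_one]
        ring
    | coe y =>
      cases c with
      | infty =>
        simp only [Orient_dt_infty_some, Orient_dt_some_some, Orient_dt_some_infty,
          mul_neg, mul_one, Left.sign_neg, sign_one, SignType.coe_neg, SignType.coe_one]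
        ring
      | coe z =>
        simp only [Orient_dt_some_some]
        exact Orient_sign_three x y z

/-! ### The statements -/

theorem orient_cyclic (a b c : OnePoint ℚ) : orient b c a = orient a b c := by
  rw [Orient_eq_sg, Orient_eq_sg]
  ring

theorem orient_swap (a b c : OnePoint ℚ) : orient b a c = - orient a b c := by
  rw [Orient_eq_sg, Orient_eq_sg, Orient_sg_swap a b, Orient_sg_swap c a, Orient_sg_swap b c]
  ring

/-- (`dt ∞ b = 1`, `dt a b = a - b`; case analysis on the order of the points.) -/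
theorem orient_cocycle (a b c d : OnePoint ℚ) :
    orient b c d - orient a c d + orient a b d - orient a b c = 0 := by
  rw [Orient_eq_sg, Orient_eq_sg, Orient_eq_sg, Orient_eq_sg, Orient_sg_swap b d,
    Orient_sg_swap a c]
  ring

theorem Orient_det (g : GL (Fin 2) ℚ) : g.det.val = g 0 0 * g 1 1 - g 0 1 * g 1 0 := by
  rw [Matrix.GeneralLinearGroup.val_det_apply, Matrix.det_fin_two]

/-- `λ • vec (g • a) = g (vec a)` for some `λ ≠ 0`. -/
theorem Orient_vec_smul (g : GL (Fin 2) ℚ) (a : OnePoint ℚ) : ∃ l : ℚ, l ≠ 0 ∧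
    l * (vec (g • a)).1 = g 0 0 * (vec a).1 + g 0 1 * (vec a).2 ∧
    l * (vec (g • a)).2 = g 1 0 * (vec a).1 + g 1 1 * (vec a).2 := by
  have hdet : g 0 0 * g 1 1 - g 0 1 * g 1 0 ≠ 0 := by
    rw [← Orient_det]
    exact g.det.ne_zero
  cases a with
  | infty =>
    rw [OnePoint.smul_infty_eq_ite]
    by_cases h : g 1 0 = 0
    · rw [if_pos h]
      refine ⟨g 0 0, ?_, ?_, ?_⟩
      · intro h0
        apply hdet
        rw [h0, h]
        ring
      · simp [vec]
      · simp [vec, h]
    · rw [if_neg h]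
      refine ⟨g 1 0, h, ?_, ?_⟩
      · change g 1 0 * (g 0 0 / g 1 0) = g 0 0 * 1 + g 0 1 * 0
        field_simp
        ring
      · change g 1 0 * 1 = g 1 0 * 1 + g 1 1 * 0
        ring
  | coe x =>
    rw [OnePoint.smul_some_eq_ite]
    by_cases h : g 1 0 * x + g 1 1 = 0
    · rw [if_pos h]
      refine ⟨g 0 0 * x + g 0 1, ?_, ?_, ?_⟩
      · intro h0
        apply hdet
        linear_combination g 0 0 * h - g 1 0 * h0
      · change (g 0 0 * x + g 0 1) * 1 = g 0 0 * x + g 0 1 * 1
        ring
      · change (g 0 0 * x + g 0 1) * 0 = g 1 0 * x + g 1 1 * 1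
        linear_combination -h
    · rw [if_neg h]
      refine ⟨g 1 0 * x + g 1 1, h, ?_, ?_⟩
      · change (g 1 0 * x + g 1 1) * ((g 0 0 * x + g 0 1) / (g 1 0 * x + g 1 1)) =
          g 0 0 * x + g 0 1 * 1
        field_simp
      · change (g 1 0 * x + g 1 1) * 1 = g 1 0 * x + g 1 1 * 1
        ring

/-- `vec (g • a) = λ_a⁻¹ • g (vec a)`, so `dt (g•a) (g•b) = det g * dt a b / (λ_a λ_b)`. -/
theorem orient_smul (g : GL (Fin 2) ℚ) (hg : 0 < g.det.val) (a b c : OnePoint ℚ) :
    orient (g • a) (g • b) (g • c) = orient a b c := by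
  rw [Orient_det] at hg
  obtain ⟨la, hla, ha1, ha2⟩ := Orient_vec_smul g a
  obtain ⟨lb, hlb, hb1, hb2⟩ := Orient_vec_smul g b
  obtain ⟨lc, hlc, hc1, hc2⟩ := Orient_vec_smul g c
  have key : ∀ (a b : OnePoint ℚ) (la lb : ℚ),
      la * (vec (g • a)).1 = g 0 0 * (vec a).1 + g 0 1 * (vec a).2 →
      la * (vec (g • a)).2 = g 1 0 * (vec a).1 + g 1 1 * (vec a).2 →
      lb * (vec (g • b)).1 = g 0 0 * (vec b).1 + g 0 1 * (vec b).2 →
      lb * (vec (g • b)).2 = g 1 0 * (vec b).1 + g 1 1 * (vec b).2 →
      la * lb * dt (g • a) (g • b) = (g 0 0 * g 1 1 - g 0 1 * g 1 0) * dt a b := by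
    intro a b la lb ha1 ha2 hb1 hb2
    unfold dt
    linear_combination (lb * (vec (g • b)).2) * ha1 +
      (g 0 0 * (vec a).1 + g 0 1 * (vec a).2) * hb2 - (lb * (vec (g • b)).1) * ha2 -
      (g 1 0 * (vec a).1 + g 1 1 * (vec a).2) * hb1
  have hab := key a b la lb ha1 ha2 hb1 hb2
  have hbc := key b c lb lc hb1 hb2 hc1 hc2
  have hca := key c a lc la hc1 hc2 ha1 ha2
  have e : (la * lb * lc) ^ 2 * (dt (g • a) (g • b) * dt (g • b) (g • c) * dt (g • c) (g • a)) =
      (g 0 0 * g 1 1 - g 0 1 * g 1 0) ^ 3 * (dt a b * dt b c * dt c a) := by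
    linear_combination (lb * lc * dt (g • b) (g • c)) * (lc * la * dt (g • c) (g • a)) * hab +
      ((g 0 0 * g 1 1 - g 0 1 * g 1 0) * dt a b) * (lc * la * dt (g • c) (g • a)) * hbc +
      ((g 0 0 * g 1 1 - g 0 1 * g 1 0) * dt a b) * ((g 0 0 * g 1 1 - g 0 1 * g 1 0) * dt b c) * hca
  have hs := congrArg SignType.sign e
  have hl : 0 < (la * lb * lc) ^ 2 := by positivity
  rw [sign_mul ((la * lb * lc) ^ 2), sign_mul ((g 0 0 * g 1 1 - g 0 1 * g 1 0) ^ 3), sign_pos hl,
    sign_pos (pow_pos hg 3), one_mul, one_mul] at hs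
  unfold orient
  rw [hs]

theorem orient_base : orient cInf cZero cNeg = -1 := by
  have h1 : dt cInf cZero = 1 := Orient_dt_infty_some 0
  have h2 : dt cZero cNeg = 1 := by
    have := Orient_dt_some_some 0 (-1)
    rw [sub_neg_eq_add, zero_add] at this
    exact this
  have h3 : dt cNeg cInf = -1 := Orient_dt_some_infty (-1)
  unfold orient
  rw [h1, h2, h3]
  simp

end Fermat.Agent.S41.PD
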